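import Fermat.Agent.S59.LL.SQ23.Defs
import Fermat.Agent.S59.LL.H40_LLec0
import Fermat.Agent.S43.Old.H75_DivAll

/-!
# S59 / LL / SQ23 (helper40): leaves S3-ALG and S3-WIRE

* `s3_alg` : the group theory of steps (e), (f): in a `3`-divisible abelian group with an action
  of `S₃ = ⟨s₀, s₁⟩`, if `x` is killed by `3`, `s₀ x = s₁ x = -x` and `x = c k₀ - k₀`
  (`c = s₀ s₁`), then there is `w` killed by `3` with `s₀ w = w` and `c w - w = -x`.
* `sqNewTwo3_of : Stmt_S3 → LL.H40.SqNewTwoAt 3` : step (g) and the wiring: the `s₀`-fixed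
  `3`-torsion contains an eigenvector `z` with the system of `x`
  (`SQ.H40.exists_eigen_of_map_eigen`), `2 z = β^* β_* z`, and `SQ.H40.eig_of_pull_span` gives the
  eigenform of level `M`.
-/

set_option autoImplicit false
set_option linter.unusedVariables false
set_option linter.style.haveILetI false
set_option maxHeartbeats 1000000

noncomputable section

namespace Fermat.Agent.S59.LL.SQ23.H40

open AlgebraicCurve ModularCurve Fermat.Agent.S24 Fermat.Agent.S36.H44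
  Fermat.Agent.S59.LL.SQ.H40 Fermat.Agent.S59.LL.SQ23 Fermat.Agent.S44 Fermat.Agent.S35.H89

/-! ## S3-ALG -/

section Alg

variable {J : Type*} [AddCommGroup J] (s0 s1 : J →+ J)

/-- The braid relation from `(s₀ s₁)³ = 1`. -/
theorem braid_of_c3 (hs0 : ∀ x, s0 (s0 x) = x) (hs1 : ∀ x, s1 (s1 x) = x)
    (hc3 : ∀ x, s0 (s1 (s0 (s1 (s0 (s1 x))))) = x) (y : J) :
    s0 (s1 (s0 y)) = s1 (s0 (s1 y)) := by
  have h := hc3 (s1 (s0 (s1 y)))
  rw [hs1, hs0, hs1] at h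
  exact h

/-- **S3-ALG**, steps (e) and (f). -/
theorem s3_alg (hs0 : ∀ x, s0 (s0 x) = x) (hs1 : ∀ x, s1 (s1 x) = x)
    (hc3 : ∀ x, s0 (s1 (s0 (s1 (s0 (s1 x))))) = x)
    (hdiv : ∀ x : J, ∃ u : J, (3 : ℤ) • u = x)
    (x k₀ : J) (h3 : (3 : ℤ) • x = 0) (hs0x : s0 x = -x) (hs1x : s1 x = -x)
    (hk : s0 (s1 k₀) - k₀ = x) :
    ∃ w : J, (3 : ℤ) • w = 0 ∧ s0 w = w ∧ s0 (s1 w) - w = -x := by
  have hbr := braid_of_c3 s0 s1 hs0 hs1 hc3
  -- `c = s₀ s₁`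
  have hcx : s0 (s1 x) = x := by rw [hs1x, map_neg, hs0x, neg_neg]
  have hck₀ : s0 (s1 k₀) = k₀ + x := by rw [← hk]; abel
  have hcck₀ : s0 (s1 (s0 (s1 k₀))) = k₀ + x + x := by
    rw [hck₀, map_add, map_add, hcx, hck₀]
  obtain ⟨u, hu⟩ := hdiv k₀
  set Nu : J := u + s0 (s1 u) + s0 (s1 (s0 (s1 u))) with hNu
  have hcNu : s0 (s1 Nu) = Nu := by
    rw [hNu, map_add, map_add, map_add, map_add, hc3]
    abel
  have h3Nu : (3 : ℤ) • Nu = k₀ + (k₀ + x) + (k₀ + x + x) := by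
    have e1 : (3 : ℤ) • s0 (s1 u) = s0 (s1 k₀) := by
      rw [← map_zsmul, ← map_zsmul, hu]
    have e2 : (3 : ℤ) • s0 (s1 (s0 (s1 u))) = s0 (s1 (s0 (s1 k₀))) := by
      rw [← map_zsmul, ← map_zsmul, e1]
    rw [hNu, smul_add, smul_add, hu, e1, e2, hcck₀, hck₀]
  set k : J := k₀ - Nu with hkdef
  have h3k : (3 : ℤ) • k = 0 := by
    rw [hkdef, smul_sub, h3Nu]
    have : (3 : ℤ) • k₀ - (k₀ + (k₀ + x) + (k₀ + x + x)) = -((3 : ℤ) • x) := by
      rw [show (3 : ℤ) = 1 + 1 + 1 from rfl, add_smul, add_smul, one_smul, add_smul, add_smul,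
        one_smul]
      abel
    rw [this, h3, neg_zero]
  have hck : s0 (s1 k) = k + x := by
    rw [hkdef, map_sub, map_sub, hcNu, hck₀]
    abel
  have hcs0 : ∀ y, s0 (s1 (s0 y)) = s0 (s0 (s1 (s0 (s1 y)))) := by
    intro y
    rw [hs0, hbr]
  have hcck : s0 (s1 (s0 (s1 k))) = k + x + x := by
    rw [hck, map_add, map_add, hcx, hck]
  have h1 : s0 (s1 (s0 k)) = s0 k + -x + -x := by
    rw [hcs0 k, hcck, map_add, map_add, hs0x]
  refine ⟨k + s0 k, ?_, ?_, ?_⟩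
  · rw [smul_add, ← map_zsmul, h3k, map_zero, add_zero]
  · rw [map_add, hs0, add_comm]
  · rw [map_add, map_add, hck, h1]
    abel

end Alg

/-! ## S3-WIRE -/

section Wire

variable {M : ℕ} [NeZero M]

/-- `s₀` commutes with the good Hecke operators (`s₀ = β^* β_* - 1`). -/
theorem hecke_s0 (D : S3Act M) (ℓ : Nat.Primes) (hℓ : ¬ (ℓ : ℕ) ∣ M * 2) (v : JZero (M * 2)) :
    heckeOperatorBar (M * 2) ℓ (D.s0 v) = D.s0 (heckeOperatorBar (M * 2) ℓ v) := by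
  have e : ∀ w : JZero (M * 2), D.s0 w = betaPull M 2 (betaPush M 2 w) - w := fun w => by
    rw [D.beta w]; abel
  rw [e v, e (heckeOperatorBar (M * 2) ℓ v), map_sub, ← betaPull_hecke M 2 ℓ hℓ,
    ← betaPush_hecke M 2 ℓ hℓ]

/-- `s₁` commutes with the good Hecke operators (`s₁ = α^* α_* - 1`). -/
theorem hecke_s1 (D : S3Act M) (ℓ : Nat.Primes) (hℓ : ¬ (ℓ : ℕ) ∣ M * 2) (v : JZero (M * 2)) :
    heckeOperatorBar (M * 2) ℓ (D.s1 v) = D.s1 (heckeOperatorBar (M * 2) ℓ v) := by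
  have e : ∀ w : JZero (M * 2), D.s1 w = alphaPull M 2 (alphaPush M 2 w) - w := fun w => by
    rw [D.alpha w]; abel
  rw [e v, e (heckeOperatorBar (M * 2) ℓ v), map_sub, ← alphaPull_hecke M 2 ℓ hℓ,
    ← alphaPush_hecke M 2 ℓ hℓ]

/-- The restriction of an endomorphism of `J₀(N)` to the `3`-torsion. -/
def torsEnd {N : ℕ} [NeZero N] (f : JZero N →+ JZero N) :
    Module.End (ZMod 3) (JTors N 3) :=
  ({ toFun := fun v => ⟨f (v : JZero N), by
        rw [Pic0.mem_torsion, ← map_zsmul, Pic0.mem_torsion.mp v.property, map_zero]⟩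
     map_zero' := by
        apply Subtype.ext
        simp
     map_add' := fun a b => by
        apply Subtype.ext
        simp } : JTors N 3 →+ JTors N 3).toZModLinearMap 3

@[simp]
theorem coe_torsEnd {N : ℕ} [NeZero N] (f : JZero N →+ JZero N) (v : JTors N 3) :
    ((torsEnd f v : JTors N 3) : JZero N) = f (v : JZero N) := rfl

/-- **SQ23 from its geometric content.** -/
theorem sqNewTwo3_of (h : Stmt_S3) : Fermat.Agent.S59.LL.H40.SqNewTwoAt 3 := by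
  classical
  intro M _ h2 h4 A hA S t x hx0 hxp hnew hI hT hNE
  obtain ⟨D, hH⟩ := h M h2 h4
  have hp : Nat.Prime 3 := Nat.prime_three
  haveI : Fact (Nat.Prime 3) := ⟨hp⟩
  have hxp3 : (3 : ℤ) • x = 0 := hxp
  obtain ⟨hα0, hβ0⟩ := (isQNew_iff M 2 x).mp hnew
  have hs0x : D.s0 x = -x := by
    have := D.beta x
    rw [hβ0, map_zero] at this
    exact (neg_eq_of_add_eq_zero_right this.symm).symm
  have hs1x : D.s1 x = -x := by
    have := D.alpha x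
    rw [hα0, map_zero] at this
    exact (neg_eq_of_add_eq_zero_right this.symm).symm
  have hcx : D.c x = x := by rw [D.c_apply, hs1x, map_neg, hs0x, neg_neg]
  obtain ⟨k₀, hk₀⟩ := hH S t x hxp3 hcx hT hNE
  have hdiv : ∀ y : JZero (M * 2), ∃ u : JZero (M * 2), (3 : ℤ) • u = y := by
    intro y
    obtain ⟨u, hu⟩ := Fermat.Agent.S43.Old.H75.divisible_all (M * 2) 3 (by norm_num) y
    exact ⟨u, by rw [show (3 : ℤ) = ((3 : ℕ) : ℤ) from rfl, natCast_zsmul]; exact hu⟩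
  obtain ⟨w, hw3, hws0, hwc⟩ := s3_alg D.s0 D.s1 D.s0_s0 D.s1_s1 D.c3 hdiv x k₀ hxp3 hs0x hs1x hk₀
  -- the `s₀`-fixed part of the `3`-torsion
  obtain ⟨⟨hfinJ, -, hTcomm, -⟩, -, -⟩ := stmt_TateModP 3 hp (by norm_num) (M * 2)
  haveI : Finite (JTors (M * 2) 3) := hfinJ
  haveI : Module.Finite (ZMod 3) (JTors (M * 2) 3) := Module.Finite.of_finite
  let ι : Type := {ℓ : Nat.Primes // (ℓ : ℕ) ∉ S ∧ ¬ (ℓ : ℕ) ∣ M * 2 ∧ (ℓ : ℕ) ≠ 3}
  let s0L : Module.End (ZMod 3) (JTors (M * 2) 3) := torsEnd D.s0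
  let cL : Module.End (ZMod 3) (JTors (M * 2) 3) := torsEnd D.c
  let Y : Submodule (ZMod 3) (JTors (M * 2) 3) := LinearMap.ker (s0L - LinearMap.id)
  have hmemY : ∀ v : JTors (M * 2) 3, v ∈ Y ↔ D.s0 (v : JZero (M * 2)) = (v : JZero (M * 2)) := by
    intro v
    rw [LinearMap.mem_ker, LinearMap.sub_apply, LinearMap.id_apply, sub_eq_zero]
    constructor
    · intro h
      exact congrArg Subtype.val h
    · intro h
      exact Subtype.ext h
  have hstab : ∀ i : ι, ∀ v ∈ Y, heckeTors (M * 2) 3 i.1 v ∈ Y := by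
    intro i v hv
    rw [hmemY] at hv ⊢
    rw [coe_heckeTors_apply, ← hecke_s0 D i.1 i.2.2.1, hv]
  let TY : ι → Module.End (ZMod 3) Y := fun i => (heckeTors (M * 2) 3 i.1).restrict (hstab i)
  let TJ : ι → Module.End (ZMod 3) (JTors (M * 2) 3) := fun i => heckeTors (M * 2) 3 i.1
  have hcommJ : ∀ i j : ι, heckeTors (M * 2) 3 i.1 * heckeTors (M * 2) 3 j.1
      = heckeTors (M * 2) 3 j.1 * heckeTors (M * 2) 3 i.1 := by
    intro i j
    have h := hTcomm (i.1 : ℕ) (j.1 : ℕ)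
    rw [jzModule.T_eq (M * 2) 3 i.1.2 i.2.2.1, jzModule.T_eq (M * 2) 3 j.1.2 j.2.2.1] at h
    exact h
  have hcomm : ∀ i j, Commute (TY i) (TY j) := by
    intro i j
    apply LinearMap.ext
    intro a
    apply Subtype.ext
    exact LinearMap.congr_fun (hcommJ i j) (a : JTors (M * 2) 3)
  let φ : Y →ₗ[ZMod 3] JTors (M * 2) 3 := (cL - LinearMap.id).comp Y.subtype
  have hφcoe : ∀ y : Y, ((φ y : JTors (M * 2) 3) : JZero (M * 2))
      = D.c ((y : JTors (M * 2) 3) : JZero (M * 2)) - ((y : JTors (M * 2) 3) : JZero (M * 2)) :=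
    fun y => rfl
  have hφ : ∀ i y, φ (TY i y) = TJ i (φ y) := by
    intro i y
    apply Subtype.ext
    rw [hφcoe]
    show D.c (heckeOperatorBar (M * 2) i.1 ((y : JTors (M * 2) 3) : JZero (M * 2)))
        - heckeOperatorBar (M * 2) i.1 ((y : JTors (M * 2) 3) : JZero (M * 2))
      = heckeOperatorBar (M * 2) i.1 ((φ y : JTors (M * 2) 3) : JZero (M * 2))
    rw [hφcoe, map_sub, D.c_apply, D.c_apply, hecke_s0 D i.1 i.2.2.1, hecke_s1 D i.1 i.2.2.1]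
  let wT : JTors (M * 2) 3 := ⟨w, Pic0.mem_torsion.mpr hw3⟩
  let y₀ : Y := ⟨wT, (hmemY wT).mpr hws0⟩
  have hφy : ((φ y₀ : JTors (M * 2) 3) : JZero (M * 2)) = -x := by
    rw [hφcoe]
    exact hwc
  have hφ0 : φ y₀ ≠ 0 := by
    intro h0
    apply hx0
    have : ((φ y₀ : JTors (M * 2) 3) : JZero (M * 2)) = 0 := by rw [h0]; rfl
    rw [hφy] at this
    exact neg_eq_zero.mp this
  have hcoe_smul : ∀ (k : ℤ) (v : JTors (M * 2) 3),
      (((((k : ℤ) : ZMod 3) • v : JTors (M * 2) 3)) : JZero (M * 2))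
        = k • (v : JZero (M * 2)) := by
    intro k v
    rw [Int.cast_smul_eq_zsmul]
    rfl
  have hxe : ∀ i : ι, TJ i (φ y₀) = ((t (i.1 : ℕ) : ℤ) : ZMod 3) • φ y₀ := by
    intro i
    apply Subtype.ext
    rw [hcoe_smul, hφy]
    show heckeOperatorBar (M * 2) i.1 ((φ y₀ : JTors (M * 2) 3) : JZero (M * 2)) = _
    rw [hφy, map_neg, hT i.1 i.2.1 i.2.2.1 i.2.2.2, zsmul_neg]
  obtain ⟨z, hz0, hz⟩ := exists_eigen_of_map_eigen TY TJ hcomm φ hφ
    (fun i : ι => ((t (i.1 : ℕ) : ℤ) : ZMod 3)) y₀ hφ0 hxe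
  -- the point `z` of `J₀(2M)[3]`, fixed by `s₀`, with the system `t`
  set zJ : JZero (M * 2) := ((z : JTors (M * 2) 3) : JZero (M * 2)) with hzJ
  have hzJ0 : zJ ≠ 0 := fun h0 => hz0 (Subtype.ext (Subtype.ext h0))
  have hz3 : (3 : ℤ) • zJ = 0 := by
    have h3z : ((3 : ℕ) : ℤ) • ((z : JTors (M * 2) 3) : JZero (M * 2)) = 0 :=
      Pic0.mem_torsion.mp (z : JTors (M * 2) 3).property
    exact h3z
  have hzs0 : D.s0 zJ = zJ := (hmemY (z : JTors (M * 2) 3)).mp z.property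
  have hzT : ∀ ℓ : Nat.Primes, (ℓ : ℕ) ∉ S → ¬ (ℓ : ℕ) ∣ M * 2 → (ℓ : ℕ) ≠ 3 →
      heckeOperatorBar (M * 2) ℓ zJ = t ℓ • zJ := by
    intro ℓ hℓS hℓN hℓp
    have h := hz ⟨ℓ, hℓS, hℓN, hℓp⟩
    have h2 := congrArg (fun v : Y => ((v : JTors (M * 2) 3) : JZero (M * 2))) h
    simp only [Submodule.coe_smul, hcoe_smul] at h2
    exact h2
  -- `X = z + s₀ z = β^* β_* z`
  set X : JZero (M * 2) := betaPull M 2 (betaPush M 2 zJ) with hX
  have hXz : X = zJ + zJ := by rw [hX, D.beta zJ, hzs0]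
  have hX0 : X ≠ 0 := by
    intro h0
    apply hzJ0
    have e : zJ = (3 : ℤ) • zJ - (zJ + zJ) := by
      rw [show (3 : ℤ) = 1 + 1 + 1 from rfl, add_zsmul, add_zsmul, one_zsmul]
      abel
    rw [e, hz3, ← hXz, h0, sub_zero]
  have hX3 : ((3 : ℕ) : ℤ) • X = 0 := by
    rw [hXz, zsmul_add]
    have : ((3 : ℕ) : ℤ) • zJ = 0 := hz3
    rw [this, add_zero]
  have hXT : ∀ ℓ : Nat.Primes, (ℓ : ℕ) ∉ S → ¬ (ℓ : ℕ) ∣ M * 2 → (ℓ : ℕ) ≠ 3 →
      heckeOperatorBar (M * 2) ℓ X = t ℓ • X := by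
    intro ℓ hℓS hℓN hℓp
    rw [hXz, map_add, hzT ℓ hℓS hℓN hℓp, zsmul_add]
  have hy' : (3 : ℕ) • betaPush M 2 zJ = 0 := by
    rw [← map_nsmul]
    have : (3 : ℕ) • zJ = 0 := by
      have := hz3
      rwa [show (3 : ℤ) = ((3 : ℕ) : ℤ) from rfl, natCast_zsmul] at this
    rw [this, map_zero]
  exact eig_of_pull_span 3 hp M 2 S t X hX0 hX3 hXT 0 (betaPush M 2 zJ) 1 3 one_ne_zero
    (by norm_num) (by simp) hy' (by rw [map_zero, zero_add])

end Wire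

end Fermat.Agent.S59.LL.SQ23.H40
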