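import Mathlib

/-!
# S59 / LL / SQ23, leaf S3-GAL (helper72): the abstract Galois theory

* `exists_deck` : a quadratic extension in characteristic `0` has a deck involution, whose fixed
  points are exactly the base field.
* `s3_of_degrees` : two different quadratic subextensions `a : A → E`, `b : B → E` over a common
  subfield `C` of degree `6` give two involutions `s0`, `s1` of `E` with `(s0 s1)³ = 1`.
-/

set_option autoImplicit false
set_option linter.style.haveILetI false
set_option linter.unusedVariables false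

noncomputable section

namespace Fermat.Agent.S59.LL.SQ23.H72

/-- In a group of order `6`, the product of two involutions has order dividing `3`. -/
theorem pow_three_of_card_six {G : Type*} [Group G] [Finite G] (h6 : Nat.card G = 6)
    (s t : G) (hs : s ^ 2 = 1) (ht : t ^ 2 = 1) (hs1 : s ≠ 1) (ht1 : t ≠ 1) :
    (s * t) ^ 3 = 1 := by
  haveI : Fact (Nat.Prime 3) := ⟨by norm_num⟩
  haveI : Fact (Nat.Prime 2) := ⟨by norm_num⟩
  obtain ⟨d, hd⟩ := exists_prime_orderOf_dvd_card' (G := G) 3 (by rw [h6]; norm_num)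
  set P : Subgroup G := Subgroup.zpowers d with hP
  have hPc : Nat.card P = 3 := by rw [hP, Nat.card_zpowers, hd]
  have hidx : P.index = 2 := by
    have h := Subgroup.card_mul_index P
    rw [hPc, h6] at h
    omega
  have hnot : ∀ u : G, u ^ 2 = 1 → u ≠ 1 → u ∉ P := by
    intro u hu hu1 hmem
    have h3 : (⟨u, hmem⟩ : P) ^ 3 = 1 := by
      have := pow_card_eq_one' (G := P) (x := ⟨u, hmem⟩)
      rwa [hPc] at this
    have h3' : u ^ 3 = 1 := by
      have := congrArg (fun x : P => (x : G)) h3
      simpa using this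
    apply hu1
    calc u = u ^ 3 * (u ^ 2)⁻¹ := by group
      _ = 1 := by rw [h3', hu]; simp
  have hmem : s * t ∈ P := by
    rw [Subgroup.mul_mem_iff_of_index_two hidx]
    exact ⟨fun h => absurd h (hnot s hs hs1), fun h => absurd h (hnot t ht ht1)⟩
  have h3 : (⟨s * t, hmem⟩ : P) ^ 3 = 1 := by
    have := pow_card_eq_one' (G := P) (x := ⟨s * t, hmem⟩)
    rwa [hPc] at this
  have := congrArg (fun x : P => (x : G)) h3
  simpa using this

/-- A finite group whose order divides `6`, with two different involutions, has order `6`. -/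
theorem card_six_of_two_involutions {G : Type*} [Group G] [Finite G] (hdvd : Nat.card G ∣ 6)
    (s t : G) (hs : s ^ 2 = 1) (ht : t ^ 2 = 1) (hs1 : s ≠ 1) (ht1 : t ≠ 1) (hst : s ≠ t) :
    Nat.card G = 6 := by
  have h2 : 2 ∣ Nat.card G := by
    have ho : orderOf s = 2 := orderOf_eq_prime hs hs1
    rw [← ho]
    exact orderOf_dvd_natCard s
  have h3 : 3 ≤ Nat.card G := by
    classical
    haveI : Fintype G := Fintype.ofFinite G
    rw [Nat.card_eq_fintype_card]
    have hsub : ({1, s, t} : Finset G) ⊆ Finset.univ := Finset.subset_univ _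
    have hc : ({1, s, t} : Finset G).card = 3 := by
      rw [Finset.card_insert_of_notMem, Finset.card_insert_of_notMem, Finset.card_singleton]
      · simpa using hst
      · simp only [Finset.mem_insert, Finset.mem_singleton, not_or]
        exact ⟨fun h => hs1 h.symm, fun h => ht1 h.symm⟩
    calc 3 = ({1, s, t} : Finset G).card := hc.symm
      _ ≤ Finset.univ.card := Finset.card_le_card hsub
      _ = Fintype.card G := Finset.card_univ
  have hle : Nat.card G ≤ 6 := Nat.le_of_dvd (by norm_num) hdvd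
  interval_cases h : Nat.card G <;> omega

/-- **The deck involution** of a quadratic extension in characteristic `0`. -/
theorem exists_deck {K A E : Type*} [Field K] [Field A] [Field E] [Algebra K A] [Algebra K E]
    [CharZero A] (φ : A →ₐ[K] E)
    (h2 : letI := φ.toRingHom.toAlgebra; Module.finrank A E = 2) :
    ∃ s : E ≃ₐ[K] E, (∀ f, s (s f) = f) ∧ (∀ x, s (φ x) = φ x) ∧
      (∀ f, s f = f → ∃ x, φ x = f) ∧ ∃ f, s f ≠ f := by
  letI := φ.toRingHom.toAlgebra
  haveI : IsScalarTower K A E := IsScalarTower.of_algebraMap_eq fun k => (φ.commutes k).symm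
  haveI : Algebra.IsQuadraticExtension A E := ⟨h2⟩
  haveI : FiniteDimensional A E := Module.finite_of_finrank_pos (by rw [h2]; norm_num)
  haveI : IsGalois A E := inferInstance
  have hcard : Nat.card (E ≃ₐ[A] E) = 2 := by rw [IsGalois.card_aut_eq_finrank, h2]
  haveI : Finite (E ≃ₐ[A] E) := Nat.finite_of_card_ne_zero (by rw [hcard]; norm_num)
  haveI : Nontrivial (E ≃ₐ[A] E) := by
    rw [← Finite.one_lt_card_iff_nontrivial, hcard]
    norm_num
  obtain ⟨s, hs⟩ := exists_ne (1 : E ≃ₐ[A] E)
  have hs2 : s ^ 2 = 1 := by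
    have := pow_card_eq_one' (G := E ≃ₐ[A] E) (x := s)
    rwa [hcard] at this
  have hall : ∀ σ : E ≃ₐ[A] E, σ = 1 ∨ σ = s := by
    classical
    intro σ
    by_contra hσ
    push Not at hσ
    haveI : Fintype (E ≃ₐ[A] E) := Fintype.ofFinite _
    have hc : ({1, s, σ} : Finset (E ≃ₐ[A] E)).card = 3 := by
      rw [Finset.card_insert_of_notMem, Finset.card_insert_of_notMem, Finset.card_singleton]
      · simpa using fun h => hσ.2 h.symm
      · simp only [Finset.mem_insert, Finset.mem_singleton, not_or]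
        exact ⟨fun h => hs h.symm, fun h => hσ.1 h.symm⟩
    have : 3 ≤ Nat.card (E ≃ₐ[A] E) := by
      rw [Nat.card_eq_fintype_card]
      calc 3 = ({1, s, σ} : Finset (E ≃ₐ[A] E)).card := hc.symm
        _ ≤ Finset.univ.card := Finset.card_le_card (Finset.subset_univ _)
        _ = Fintype.card (E ≃ₐ[A] E) := Finset.card_univ
    omega
  refine ⟨s.restrictScalars K, ?_, ?_, ?_, ?_⟩
  · intro f
    have := DFunLike.congr_fun hs2 f
    simpa [pow_two, AlgEquiv.mul_apply] using this
  · intro x
    exact s.commutes x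
  · intro f hf
    have hfix : ∀ σ : E ≃ₐ[A] E, σ f = f := by
      intro σ
      rcases hall σ with rfl | rfl
      · rfl
      · exact hf
    have := (IsGalois.mem_range_algebraMap_iff_fixed (F := A) (E := E) f).2 hfix
    obtain ⟨x, hx⟩ := this
    exact ⟨x, hx⟩
  · by_contra hcon
    push Not at hcon
    apply hs
    ext f
    exact hcon f

/-- **Two different quadratic subextensions over a common subfield of degree `6`** give two
involutions whose product has order dividing `3`. -/
theorem s3_of_degrees {K C A B E : Type*} [Field K] [Field C] [Field A] [Field B] [Field E]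
    [Algebra K C] [Algebra K A] [Algebra K B] [Algebra K E] [CharZero K]
    (a : A →ₐ[K] E) (b : B →ₐ[K] E) (ca : C →ₐ[K] A) (cb : C →ₐ[K] B)
    (hsq : ∀ z, a (ca z) = b (cb z))
    (ha : letI := a.toRingHom.toAlgebra; Module.finrank A E = 2)
    (hb : letI := b.toRingHom.toAlgebra; Module.finrank B E = 2)
    (hc : letI := (a.comp ca).toRingHom.toAlgebra; Module.finrank C E = 6)
    (hne : ∃ x : A, ∀ y : B, b y ≠ a x) :
    ∃ s0 s1 : E ≃ₐ[K] E, (∀ f, s0 (s0 f) = f) ∧ (∀ f, s1 (s1 f) = f) ∧
      (∀ y, s0 (b y) = b y) ∧ (∀ x, s1 (a x) = a x) ∧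
      (∀ f, s0 f = f → ∃ y, b y = f) ∧ (∀ f, s1 f = f → ∃ x, a x = f) ∧
      ∀ f, s0 (s1 (s0 (s1 (s0 (s1 f))))) = f := by
  haveI : CharZero A := charZero_of_injective_algebraMap (algebraMap K A).injective
  haveI : CharZero B := charZero_of_injective_algebraMap (algebraMap K B).injective
  obtain ⟨s1, h11, h1a, h1f, h1n⟩ := exists_deck a ha
  obtain ⟨s0, h00, h0b, h0f, h0n⟩ := exists_deck b hb
  refine ⟨s0, s1, h00, h11, h0b, h1a, h0f, h1f, ?_⟩
  letI := (a.comp ca).toRingHom.toAlgebra
  have hmap : ∀ z : C, algebraMap C E z = a (ca z) := fun z => rfl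
  haveI : FiniteDimensional C E := Module.finite_of_finrank_pos (by rw [hc]; norm_num)
  -- the two involutions as automorphisms over `C`
  let t0 : E ≃ₐ[C] E := AlgEquiv.ofRingEquiv (f := s0.toRingEquiv) (fun z => by
    rw [hmap, hsq]
    exact h0b _)
  let t1 : E ≃ₐ[C] E := AlgEquiv.ofRingEquiv (f := s1.toRingEquiv) (fun z => by
    rw [hmap]
    exact h1a _)
  have ht0 : ∀ f, t0 f = s0 f := fun f => rfl
  have ht1 : ∀ f, t1 f = s1 f := fun f => rfl
  have ht0sq : t0 ^ 2 = 1 := by
    ext f
    rw [pow_two, AlgEquiv.mul_apply, ht0, ht0, h00]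
    rfl
  have ht1sq : t1 ^ 2 = 1 := by
    ext f
    rw [pow_two, AlgEquiv.mul_apply, ht1, ht1, h11]
    rfl
  have ht0ne : t0 ≠ 1 := by
    intro h
    obtain ⟨f, hf⟩ := h0n
    apply hf
    rw [← ht0, h]
    rfl
  have ht1ne : t1 ≠ 1 := by
    intro h
    obtain ⟨f, hf⟩ := h1n
    apply hf
    rw [← ht1, h]
    rfl
  have hne01 : t0 ≠ t1 := by
    intro h
    obtain ⟨x, hx⟩ := hne
    have h1 : s0 (a x) = a x := by rw [← ht0, h, ht1, h1a]
    obtain ⟨y, hy⟩ := h0f _ h1
    exact hx y hy
  haveI : Finite (E ≃ₐ[C] E) := inferInstance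
  have hdvd : Nat.card (E ≃ₐ[C] E) ∣ 6 := by
    have h1 := IntermediateField.finrank_fixedField_eq_card (F := C) (E := E)
      (⊤ : Subgroup (E ≃ₐ[C] E))
    have h2 := Module.finrank_mul_finrank C
      (IntermediateField.fixedField (⊤ : Subgroup (E ≃ₐ[C] E))) E
    rw [hc, h1] at h2
    have h3 : Nat.card (⊤ : Subgroup (E ≃ₐ[C] E)) = Nat.card (E ≃ₐ[C] E) :=
      Subgroup.card_top
    rw [h3] at h2
    exact Dvd.intro_left _ h2
  have h6 := card_six_of_two_involutions hdvd t0 t1 ht0sq ht1sq ht0ne ht1ne hne01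
  have h3 := pow_three_of_card_six h6 t0 t1 ht0sq ht1sq ht0ne ht1ne
  intro f
  have := DFunLike.congr_fun h3 f
  rw [pow_succ, pow_two] at this
  simpa [AlgEquiv.mul_apply, ht0, ht1] using this

end Fermat.Agent.S59.LL.SQ23.H72
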