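import Fermat.Agent.S59.LL.SQ23.Defs
import Fermat.Agent.S59.LL.SQ23.H72_GalAbs
import Fermat.Agent.NEB.Geom.H70_KU2

/-!
# S59 / LL / SQ23, leaf S3-GAL (helper72): `stmt_S3Gal : Stmt_S3Gal`

At level `4M'` (`M'` odd) the two degeneracy maps `α, β : F_{2M'} → F_{4M'}` have degree `2`, the
middle map `F_{M'} → F_{4M'}` has degree `6`, and `j(q) ∈ α F_{2M'}` is not in `β F_{2M'}`
(coefficient of `q⁻¹`).  The abstract Galois theory of `H72_GalAbs.lean` gives the two deck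
involutions with `(s₀ s₁)³ = 1`.
-/

set_option autoImplicit false
set_option linter.style.haveILetI false
set_option linter.unusedVariables false
set_option linter.unusedSectionVars false

noncomputable section

namespace Fermat.Agent.S59.LL.SQ23.H72

open AlgebraicCurve ModularCurve Fermat.Agent.S24

local notation "Kb" => AlgebraicClosure ℚ

/-- The coefficient of `q⁻¹` of `j` is `1`. -/
theorem coeff_jF_neg_one (M : ℕ) [NeZero M] :
    ((jF M : FN M) : LaurentSeries Kb).coeff (-1 : ℤ) = 1 := by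
  show (coeffEmb Kb jq).coeff (-1 : ℤ) = 1
  rw [coeffEmb_coeff, coeff_jq_neg_one, map_one]

/-- `j(q)` is not in the range of `β` (`q ↦ q²`). -/
theorem beta_ne_alpha_jF (M : ℕ) [NeZero M] (y : FN M) :
    heckeBetaBar Kb M 2 y ≠ heckeAlphaBar Kb M 2 (jF M) := by
  intro h
  have h1 : ((heckeBetaBar Kb M 2 y : FN (M * 2)) : LaurentSeries Kb).coeff (-1 : ℤ)
      = ((heckeAlphaBar Kb M 2 (jF M) : FN (M * 2)) : LaurentSeries Kb).coeff (-1 : ℤ) := by
    rw [h]
  have hz : (qExpand Kb 2 (y : LaurentSeries Kb)).coeff (-1 : ℤ) = 0 :=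
    qExpand_coeff_of_not_dvd 2 _ (by norm_num)
  rw [coe_heckeBetaBar, coe_heckeAlphaBar, coeff_jF_neg_one, hz] at h1
  exact zero_ne_one h1

/-- **S3-GAL.** -/
theorem stmt_S3Gal : Stmt_S3Gal := by
  intro M _ h2 h4
  obtain ⟨M', hM'⟩ : ∃ M', M = M' * 2 := ⟨M / 2, (Nat.div_mul_cancel h2).symm⟩
  subst hM'
  haveI : NeZero M' := ⟨fun h => NeZero.ne (M' * 2) (by rw [h, zero_mul])⟩
  have hodd : ¬ 2 ∣ M' := fun h => h4 (by
    obtain ⟨k, rfl⟩ := h
    exact ⟨k, by ring⟩)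
  have ha : finrankAlong Kb (heckeAlphaBar Kb (M' * 2) 2) = 2 :=
    Fermat.Agent.NEB.OLD.H6.finrankAlong_alpha_of_dvd (M' * 2) 2 Nat.prime_two
      (dvd_mul_left 2 M')
  have hb : finrankAlong Kb (heckeBetaBar Kb (M' * 2) 2) = 2 :=
    Fermat.Agent.NEB.Geom.H70.finrankAlong_beta_of_dvd (M' * 2) 2 Nat.prime_two
      (dvd_mul_left 2 M')
  have hc0 : finrankAlong Kb (heckeBetaBar Kb M' 2) = 2 + 1 :=
    Fermat.Agent.RED.H95.finrankAlong_beta Nat.prime_two hodd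
  have hc : Fermat.Agent.S36.H44.finrankHom
      ((heckeAlphaBar Kb (M' * 2) 2).toRingHom.comp (heckeBetaBar Kb M' 2).toRingHom) = 6 := by
    have h := Fermat.Agent.S36.H44.finrank_comp_h44 (heckeBetaBar Kb M' 2).toRingHom
      (heckeAlphaBar Kb (M' * 2) 2).toRingHom
    have e1 : Fermat.Agent.S36.H44.finrankHom (heckeBetaBar Kb M' 2).toRingHom = 2 + 1 := hc0
    have e2 : Fermat.Agent.S36.H44.finrankHom (heckeAlphaBar Kb (M' * 2) 2).toRingHom = 2 := ha
    rw [e1, e2] at h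
    exact h
  obtain ⟨s0, s1, h00, h11, h0b, h1a, h0f, h1f, hc3⟩ :=
    s3_of_degrees (heckeAlphaBar Kb (M' * 2) 2) (heckeBetaBar Kb (M' * 2) 2)
      (heckeBetaBar Kb M' 2) (heckeAlphaBar Kb M' 2)
      (fun z => Subtype.ext (by
        simp only [coe_heckeBetaBar, coe_heckeAlphaBar]))
      ha hb hc ⟨jF (M' * 2), fun y => beta_ne_alpha_jF (M' * 2) y⟩
  exact ⟨{ s0 := s0, s1 := s1, s0_s0 := h00, s1_s1 := h11, s0_beta := h0b, s1_alpha := h1a,
           s0_fixed := h0f, s1_fixed := h1f, c3 := hc3 }⟩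

end Fermat.Agent.S59.LL.SQ23.H72
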