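import Fermat.Agent.S59.LL.SQ23.H63_Inst
import Fermat.Agent.S59.LL.SQ23.H72_Gal
import Fermat.Agent.S59.LL.SQ23.H40_Alg

/-!
# S59 / LL / SQ23: the final statements (helper63)

* `stmt_S3 : Stmt_S3` — at every level `M = 2M'`, `M'` odd, there is an `S3Act M` with Hilbert 90
  (S3-GAL helper72, S3-PIC helper89, S3-HECKE helper6, S3-H90 helper36 + helper63);
* `sqNewTwo3 : LL.H40.SqNewTwoAt 3` — SQUARE removal at `q = 2`, `p = 3` (S3-ALG + S3-WIRE helper40).
-/

set_option autoImplicit false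

namespace Fermat.Agent.S59.LL.SQ23.H63

/-- **The geometric content of SQ23**, unconditionally. -/
theorem stmt_S3 : Stmt_S3 :=
  stmt_S3_of_gal Fermat.Agent.S59.LL.SQ23.H72.stmt_S3Gal

/-- **SQ-TWO at `p = 3`**, unconditionally. -/
theorem sqNewTwo3 : Fermat.Agent.S59.LL.H40.SqNewTwoAt 3 :=
  Fermat.Agent.S59.LL.SQ23.H40.sqNewTwo3_of stmt_S3

end Fermat.Agent.S59.LL.SQ23.H63
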