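import Fermat.Agent.S59.LL.SQ.H40_SpanTors

/-!
# S59 / LL / SQ23 (owner helper40): SQUARE removal at `q = 2`, `p = 3`, by the `S₃`-cover

Level `N = 2 M`, `M = 2 M'`, `M'` odd.  `X₀(4M')` is Galois over `X₀(M')` (middle map `τ ↦ 2τ`) with
group `S₃ = ⟨s₀, s₁⟩`: `s₀` = deck involution of `β : X₀(4M') → X₀(2M')`, `s₁` = the one of `α`,
`c = s₀ s₁` of order `3`.  Everything is in characteristic `0` (no reduction mod `2`).
Plan and proof: note of helper40 (05:17Z), tested by lead (`NOTES/plan/lead_SQ23_test.md`).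

## Interface (this file)
* `S3Gal M`   : the two field automorphisms of `F_{2M}` (leaf **S3-GAL**);
* `S3Act M`   : the two automorphisms of `J₀(2M)`, with `β^*β_* = 1 + s₀`, `α^*α_* = 1 + s₁`,
                `(s₀ s₁)³ = 1` (leaf **S3-PIC**, from `S3Gal`);
* `S3Act.HasH90` : Hilbert 90 on `J₀(2M)` for `c`: a `3`-torsion eigenvector with a
                non-Eisenstein system, fixed by `c`, is `c k₀ - k₀` (leaves **S3-H90** + **S3-HECKE**);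
* `Stmt_S3`   : at every level `M = 2M'` there is an `S3Act` with `HasH90`.
* target (proved in `H40_Alg.lean`): `sqNewTwo3_of : Stmt_S3 → LL.H40.SqNewTwoAt 3`.
-/

set_option autoImplicit false
set_option linter.unusedVariables false
set_option linter.style.haveILetI false

noncomputable section

namespace Fermat.Agent.S59.LL.SQ23

open AlgebraicCurve ModularCurve Fermat.Agent.S24 Fermat.Agent.S36.H44
  Fermat.Agent.S59.LL.SQ.H40

local notation "Kb" => AlgebraicClosure ℚ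

variable (M : ℕ) [NeZero M]

/-- **S3-GAL.**  The two deck involutions of `F_{2M}` (`M = 2M'`, `M'` odd): `s0` fixes exactly
`β^* F_M`, `s1` fixes exactly `α^* F_M`, and `(s0 s1)³ = 1`. -/
structure S3Gal where
  /-- the deck involution of `β` -/
  s0 : FN (M * 2) ≃ₐ[Kb] FN (M * 2)
  /-- the deck involution of `α` -/
  s1 : FN (M * 2) ≃ₐ[Kb] FN (M * 2)
  s0_s0 : ∀ f, s0 (s0 f) = f
  s1_s1 : ∀ f, s1 (s1 f) = f
  s0_beta : ∀ f : FN M, s0 (heckeBetaBar Kb M 2 f) = heckeBetaBar Kb M 2 f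
  s1_alpha : ∀ f : FN M, s1 (heckeAlphaBar Kb M 2 f) = heckeAlphaBar Kb M 2 f
  s0_fixed : ∀ f, s0 f = f → ∃ g : FN M, heckeBetaBar Kb M 2 g = f
  s1_fixed : ∀ f, s1 f = f → ∃ g : FN M, heckeAlphaBar Kb M 2 g = f
  c3 : ∀ f, s0 (s1 (s0 (s1 (s0 (s1 f))))) = f

/-- **S3-PIC.**  The action of `s₀`, `s₁` on `J₀(2M)`. -/
structure S3Act where
  /-- the action of the deck involution of `β` -/
  s0 : JZero (M * 2) →+ JZero (M * 2)
  /-- the action of the deck involution of `α` -/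
  s1 : JZero (M * 2) →+ JZero (M * 2)
  s0_s0 : ∀ x, s0 (s0 x) = x
  s1_s1 : ∀ x, s1 (s1 x) = x
  c3 : ∀ x, s0 (s1 (s0 (s1 (s0 (s1 x))))) = x
  beta : ∀ x, betaPull M 2 (betaPush M 2 x) = x + s0 x
  alpha : ∀ x, alphaPull M 2 (alphaPush M 2 x) = x + s1 x

variable {M}

/-- `c = s₀ s₁`, of order `3`. -/
def S3Act.c (D : S3Act M) : JZero (M * 2) →+ JZero (M * 2) := D.s0.comp D.s1

theorem S3Act.c_apply (D : S3Act M) (x : JZero (M * 2)) : D.c x = D.s0 (D.s1 x) := rfl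

/-- **S3-H90** (with **S3-HECKE**): Hilbert 90 for `c` on the non-Eisenstein eigenvectors. -/
def S3Act.HasH90 (D : S3Act M) : Prop :=
  ∀ (S : Finset ℕ) (t : ℕ → ℤ) (x : JZero (M * 2)), (3 : ℤ) • x = 0 → D.c x = x →
    (∀ ℓ : Nat.Primes, (ℓ : ℕ) ∉ S → ¬ (ℓ : ℕ) ∣ M * 2 → (ℓ : ℕ) ≠ 3 →
      heckeOperatorBar (M * 2) ℓ x = t ℓ • x) →
    (∃ ℓ : ℕ, ℓ.Prime ∧ ℓ ∉ S ∧ ¬ ℓ ∣ M * 2 ∧ ℓ ≠ 3 ∧
      ((t ℓ : ℤ) : ZMod 3) ≠ 1 + (ℓ : ZMod 3)) →
    ∃ k₀ : JZero (M * 2), D.c k₀ - k₀ = x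

variable (M)

/-- **The geometric content of SQ23.** -/
def Stmt_S3 : Prop :=
  ∀ (M : ℕ) [NeZero M], 2 ∣ M → ¬ 4 ∣ M → ∃ D : S3Act M, D.HasH90

/-- **S3-GAL** at every level. -/
def Stmt_S3Gal : Prop :=
  ∀ (M : ℕ) [NeZero M], 2 ∣ M → ¬ 4 ∣ M → Nonempty (S3Gal M)

end Fermat.Agent.S59.LL.SQ23
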