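import Mathlib
import Fermat.Agent.NEB.H29_PiOnto
import Fermat.Agent.NEB.H2_GalNorm
import Fermat.Agent.NEB.H94_FF
import Fermat.Agent.NEB.H29_Inv

/-!
# S59 / LL / SQ23, leaf S3-H90 in abstract form (helper36)

`K` algebraically closed, `L` a function field of one variable over `K`, `c` a `K`-automorphism of
`L` of order exactly `3`, `E = L^⟨c⟩` (`fixE c`), `φ : E → L` (`fixIncl c`).  `Φ` a correspondence
on `L` with function `N` and degree `d = n` (calculus of `NEB.H14.IsCorr`), `N` multiplicative,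
commuting with `c`, with `N ζ = ζ ^ n` on the cube roots of unity of `K`
(for `T_ℓ`: `N = Norm_β ∘ α^*`, `d = n = ℓ + 1`).

* `fix_norm`, `fix_finrank`, `fix_finiteAlong`, `isFF_fixE` : the cyclic cubic extension `L / E`;
* `pushP_fix_eq_zero` : steps (a) + (b) of helper40's note: if `x ∈ Pic⁰(L)[3]` is fixed by `c`
  and `Φ x = t x` with `3 ∤ t - n`, then `φ_* x = 0`  (the character `ζ_x` is trivial);
* `h90_eigen` : then `x = c u - u`  (`NEB.H29.pionto_ker` = Tsen + permutation modules, Bezout).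
-/

set_option autoImplicit false
set_option linter.style.haveILetI false
set_option linter.unusedSectionVars false

noncomputable section

namespace Fermat.Agent.S59.LL.SQ23.H36

open AlgebraicCurve Fermat.Agent.RED Fermat.Agent.NEB.H14 Fermat.Agent.NEB.H29

section Fix

variable {K L F₀ : Type} [Field K] [Field L] [Field F₀] [Algebra K L] [Algebra K F₀]

/-- The fixed field of `c`. -/
def fixE (c : L ≃ₐ[K] L) : IntermediateField K L :=
  IntermediateField.fixedField (Subgroup.zpowers c)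

theorem zpowers_apply_eq (c : L ≃ₐ[K] L) {x : L} (hx : c x = x) (g : L ≃ₐ[K] L)
    (hg : g ∈ Subgroup.zpowers c) : g x = x := by
  have hle : Subgroup.zpowers c ≤ MulAction.stabilizer (L ≃ₐ[K] L) x := by
    rw [Subgroup.zpowers_le]
    exact hx
  exact hle hg

theorem mem_fixE_iff (c : L ≃ₐ[K] L) (x : L) : x ∈ fixE c ↔ c x = x := by
  rw [fixE, IntermediateField.mem_fixedField_iff]
  constructor
  · intro h
    exact h c (Subgroup.mem_zpowers c)
  · intro h g hg
    exact zpowers_apply_eq c h g hg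

/-- The inclusion of the fixed field. -/
def fixIncl (c : L ≃ₐ[K] L) : ↥(fixE c) →ₐ[K] L := (fixE c).val

@[simp] theorem fixIncl_apply (c : L ≃ₐ[K] L) (e : ↥(fixE c)) : fixIncl c e = (e : L) := rfl

theorem fixIncl_fixed (c : L ≃ₐ[K] L) (e : ↥(fixE c)) : c (fixIncl c e) = fixIncl c e :=
  (mem_fixE_iff c _).1 e.2

theorem exists_fixIncl_eq (c : L ≃ₐ[K] L) {x : L} (hx : c x = x) : ∃ e, fixIncl c e = x :=
  ⟨⟨x, (mem_fixE_iff c x).2 hx⟩, rfl⟩

theorem orderOf_eq_three (c : L ≃ₐ[K] L) (hc3 : c ^ 3 = 1) (hc1 : c ≠ 1) : orderOf c = 3 := by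
  haveI : Fact (Nat.Prime 3) := ⟨Nat.prime_three⟩
  exact orderOf_eq_prime hc3 hc1

/-- The norm of `L / L^⟨c⟩` is `x ↦ x · c x · c² x`. -/
theorem fix_norm (c : L ≃ₐ[K] L) (hc3 : c ^ 3 = 1) (hc1 : c ≠ 1) (x : L) :
    fixIncl c (normFn (fixIncl c) x) = ∏ i : Fin 3, (c ^ (i : ℕ)) x := by
  have hord := orderOf_eq_three c hc3 hc1
  have hfo : IsOfFinOrder c := isOfFinOrder_iff_pow_eq_one.mpr ⟨3, by norm_num, hc3⟩
  haveI : Finite ↥(Subgroup.zpowers c) := hfo.finite_zpowers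
  letI : Fintype ↥(Subgroup.zpowers c) := Fintype.ofFinite _
  have h := (Fermat.Agent.NEB.H2.galNorm (fixIncl c) (Subgroup.zpowers c)
    (fun x hx => exists_fixIncl_eq c (hx c (Subgroup.mem_zpowers c)))
    (fun g y hg => zpowers_apply_eq c (fixIncl_fixed c y) g hg)).2.2 x
  rw [h]
  rw [← Fintype.prod_equiv (finEquivZPowers hfo) (fun i => (c ^ (i : ℕ)) x)
    (fun g => (g : L ≃ₐ[K] L) x) (fun i => by rw [finEquivZPowers_apply])]
  rw [Fin.prod_univ_eq_prod_range (fun i => (c ^ i) x) (orderOf c), hord,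
    ← Fin.prod_univ_eq_prod_range (fun i => (c ^ i) x) 3]

theorem fix_finiteAlong (c : L ≃ₐ[K] L) (hc3 : c ^ 3 = 1) :
    FiniteAlong K (fixIncl c) := by
  have hfo : IsOfFinOrder c := isOfFinOrder_iff_pow_eq_one.mpr ⟨3, by norm_num, hc3⟩
  haveI : Finite ↥(Subgroup.zpowers c) := hfo.finite_zpowers
  letI : Fintype ↥(Subgroup.zpowers c) := Fintype.ofFinite _
  exact (Fermat.Agent.NEB.H2.galNorm (fixIncl c) (Subgroup.zpowers c)
    (fun x hx => exists_fixIncl_eq c (hx c (Subgroup.mem_zpowers c)))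
    (fun g y hg => zpowers_apply_eq c (fixIncl_fixed c y) g hg)).1

theorem fix_finrank (c : L ≃ₐ[K] L) (hc3 : c ^ 3 = 1) (hc1 : c ≠ 1) :
    finrankAlong K (fixIncl c) = 3 := by
  have hord := orderOf_eq_three c hc3 hc1
  have hfo : IsOfFinOrder c := isOfFinOrder_iff_pow_eq_one.mpr ⟨3, by norm_num, hc3⟩
  haveI : Finite ↥(Subgroup.zpowers c) := hfo.finite_zpowers
  letI : Fintype ↥(Subgroup.zpowers c) := Fintype.ofFinite _
  rw [(Fermat.Agent.NEB.H2.galNorm (fixIncl c) (Subgroup.zpowers c)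
    (fun x hx => exists_fixIncl_eq c (hx c (Subgroup.mem_zpowers c)))
    (fun g y hg => zpowers_apply_eq c (fixIncl_fixed c y) g hg)).2.1]
  rw [← Nat.card_eq_fintype_card, Nat.card_zpowers, hord]

/-- The fixed field is a function field. -/
theorem isFF_fixE (hL : IsFF K L) (hF₀ : IsFF K F₀) [IsAlgClosed K] (μ : F₀ →ₐ[K] L)
    (c : L ≃ₐ[K] L) (hμ : ∀ a, c (μ a) = μ a) : IsFF K ↥(fixE c) := by
  let μ' : F₀ →ₐ[K] ↥(fixE c) :=
    AlgHom.codRestrict μ (fixE c).toSubalgebra (fun a => (mem_fixE_iff c _).2 (hμ a))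
  refine Fermat.Agent.NEB.H94.isFF_of_finiteAlong hF₀ μ' ?_
  have hfinL : FiniteAlong K μ := finiteAlong_hom hF₀ hL μ
  letI a1 := algebraAlong μ
  letI a2 := algebraAlong μ'
  haveI : Module.Finite F₀ L := hfinL
  show Module.Finite F₀ ↥(fixE c)
  let ι : ↥(fixE c) →ₗ[F₀] L :=
    { toFun := fun e => (e : L)
      map_add' := fun _ _ => rfl
      map_smul' := fun a e => by
        show ((μ' a * e : ↥(fixE c)) : L) = μ a * (e : L)
        rfl }
  exact Module.Finite.of_injective ι Subtype.val_injective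

end Fix

section Main

variable {K L : Type} [Field K] [Field L] [Algebra K L] [IsAlgClosed K]

/-- `ζ ^ 3 = 1` and `ζ ^ m = 1` with `3 ∤ m` give `ζ = 1`. -/
theorem eq_one_of_zpow {ζ : K} (hζ0 : ζ ≠ 0) (h3 : ζ ^ 3 = 1) (m : ℤ) (hm : ζ ^ m = 1)
    (h : ¬ (3 : ℤ) ∣ m) : ζ = 1 := by
  have hcop : IsCoprime m (3 : ℤ) := by
    have hp : Prime (3 : ℤ) := Int.prime_three
    exact (hp.coprime_iff_not_dvd.mpr h).symm
  obtain ⟨a, b, hab⟩ := hcop
  have h1 : ζ ^ (a * m + b * 3) = 1 := by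
    rw [zpow_add₀ hζ0, mul_comm a m, zpow_mul, hm, one_zpow, mul_comm b 3, zpow_mul]
    have : ζ ^ (3 : ℤ) = 1 := by exact_mod_cast h3
    rw [this, one_zpow, one_mul]
  rw [hab, zpow_one] at h1
  exact h1

/-- **(a) + (b)**: a `c`-fixed non-Eisenstein eigenvector of order `3` is killed by the
push-forward to the quotient by `c`. -/
theorem pushP_fix_eq_zero (hL : IsFF K L) (c : L ≃ₐ[K] L) (hE : IsFF K ↥(fixE c))
    (hc3 : c ^ 3 = 1) (hc1 : c ≠ 1)
    {Φ : Divisor K L →+ Divisor K L} {N : L → L} {d : ℤ} (hΦ : IsCorr Φ N d)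
    (hNmul : ∀ f g, N (f * g) = N f * N g) (hNc : ∀ f, N (c f) = c (N f))
    (n : ℕ) (hNK : ∀ ζ : K, ζ ^ 3 = 1 → N (algebraMap K L ζ) = algebraMap K L (ζ ^ n))
    (x : Pic0 K L) (h3 : (3 : ℤ) • x = 0) (hcx : c • x = x) (t : ℤ)
    (ht : picMap Φ x = t • x) (hEis : ¬ (3 : ℤ) ∣ t - n) :
    pushP (fixIncl c) x = 0 := by
  haveI := hasPD hL
  haveI := hasPD hE
  have hconst : ConstHyp K L := constHyp_of_isFF hL
  have hpull := isCorr_pullD hE hL (fixIncl c)
  have hpush := isCorr_pushD hE hL (fixIncl c)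
  obtain ⟨D, rfl⟩ := Pic0.mk_surjective x
  -- (1) `S := φ^* φ_* D` is principal
  have hSprin : pullD (fixIncl c) (pushD (fixIncl c) (D : Divisor K L)) ∈
      Divisor.principal (K := K) (F := L) := by
    have h1 := pullP_pushP_of_norm hE hL (fixIncl c) (fun i : Fin 3 => c ^ (i : ℕ))
      (fun x _ => fix_norm c hc3 hc1 x) (Pic0.mk D)
    have h2 : ∀ i : ℕ, (c ^ i) • Pic0.mk D = Pic0.mk D := by
      intro i
      induction i with
      | zero => rw [pow_zero, one_smul]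
      | succ k ih => rw [pow_succ, mul_smul, hcx, ih]
    simp only [h2, Finset.sum_const, Finset.card_univ, Fintype.card_fin] at h1
    have h4 : pullP (fixIncl c) (pushP (fixIncl c) (Pic0.mk D)) = 0 := by
      rw [h1, ← natCast_zsmul]
      exact h3
    rw [pushP, picMap_mk hpush.isGood, pullP, picMap_mk hpull.isGood, pic0_mk_eq_zero_iff] at h4
    simpa only [coe_degZeroMap] using h4
  obtain ⟨f, hf0, hSf⟩ := hSprin
  -- (2) `c • S = S`
  have hcS : smulD c (pullD (fixIncl c) (pushD (fixIncl c) (D : Divisor K L))) =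
      pullD (fixIncl c) (pushD (fixIncl c) (D : Divisor K L)) := by
    have h1 : (smulD c).comp (pullD (fixIncl c)) = pullD (fixIncl c) :=
      ((isCorr_smulD c).comp hpull).eq hpull (fun e _ => fixIncl_fixed c e)
    exact DFunLike.congr_fun h1 _
  -- (3) `c f = ζ f`
  have hcf0 : c f ≠ 0 := by simpa using hf0
  have hord_cf : ∀ w : Place K L, w.ord (c f) = w.ord f := by
    intro w
    have h1 := ((isCorr_smulD c).hasFn f hf0).2 _ hSf w
    rw [hcS] at h1
    rw [← h1, hSf w]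
  obtain ⟨ζ, hζ⟩ := hconst (c f * f⁻¹) (mul_ne_zero hcf0 (inv_ne_zero hf0)) (fun v => by
    rw [v.ord_mul hcf0 (inv_ne_zero hf0), v.ord_inv, hord_cf v, add_neg_cancel])
  have hcf : c f = algebraMap K L ζ * f := by
    rw [hζ]
    field_simp
  have hζ0 : ζ ≠ 0 := by
    rintro rfl
    rw [map_zero, zero_mul] at hcf
    exact hcf0 hcf
  have hζ3 : ζ ^ 3 = 1 := by
    have h1 : (c ^ 3) f = algebraMap K L (ζ ^ 3) * f := by
      have e3 : c ^ 3 = c * c * c := by rw [pow_succ, pow_two]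
      rw [e3]
      simp only [AlgEquiv.mul_apply, hcf, map_mul, AlgEquiv.commutes, map_pow]
      ring
    rw [hc3, AlgEquiv.one_apply] at h1
    have h2 : algebraMap K L (ζ ^ 3) = 1 :=
      mul_right_cancel₀ hf0 (by rw [← h1, one_mul])
    exact (algebraMap K L).injective (by rw [h2, map_one])
  -- (4) the eigen-relation on divisors
  obtain ⟨g₀, hg₀, hg⟩ : ∃ g₀ : L, g₀ ≠ 0 ∧
      ∀ v, (Φ (D : Divisor K L) - t • (D : Divisor K L)) v = v.ord g₀ := by
    rw [picMap_mk hΦ.isGood] at ht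
    have h1 : Pic0.mk (degZeroMap Φ hΦ.isGood D - t • D) = 0 := by
      have : Pic0.mk (degZeroMap Φ hΦ.isGood D - t • D) =
          Pic0.mk (degZeroMap Φ hΦ.isGood D) - t • Pic0.mk D := rfl
      rw [this, ht, sub_self]
    rw [pic0_mk_eq_zero_iff] at h1
    obtain ⟨g₀, hg₀, hg⟩ := h1
    refine ⟨g₀, hg₀, fun v => ?_⟩
    have := hg v
    simpa only [AddSubgroup.coe_sub, coe_degZeroMap, AddSubgroup.coe_zsmul] using this
  -- `φ^* φ_*` commutes with `Φ`
  have hSdcorr : IsCorr ((pullD (fixIncl c)).comp (pushD (fixIncl c)))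
      ((fixIncl c) ∘ normFn (fixIncl c)) (finrankAlong K (fixIncl c) * 1) := hpull.comp hpush
  have hcomm : Φ.comp ((pullD (fixIncl c)).comp (pushD (fixIncl c))) =
      ((pullD (fixIncl c)).comp (pushD (fixIncl c))).comp Φ := by
    refine (hΦ.comp hSdcorr).eq (hSdcorr.comp hΦ) (fun f _ => ?_)
    show N (fixIncl c (normFn (fixIncl c) f)) = fixIncl c (normFn (fixIncl c) (N f))
    rw [fix_norm c hc3 hc1, fix_norm c hc3 hc1, Fin.prod_univ_three, Fin.prod_univ_three]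
    simp only [Fin.val_zero, Fin.val_one, Fin.val_two, pow_zero, pow_one, AlgEquiv.one_apply]
    rw [hNmul, hNmul, pow_two]
    simp only [AlgEquiv.mul_apply]
    rw [hNc, hNc, hNc]
  have h5 : Φ (pullD (fixIncl c) (pushD (fixIncl c) (D : Divisor K L))) =
      pullD (fixIncl c) (pushD (fixIncl c) (Φ (D : Divisor K L))) :=
    DFunLike.congr_fun hcomm (D : Divisor K L)
  -- the functions
  have hh₀0 : fixIncl c (normFn (fixIncl c) g₀) ≠ 0 := by
    intro h0
    exact normFn_ne_zero hE hL (fixIncl c) hg₀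
      ((fixIncl c).toRingHom.injective (by simpa using h0))
  have hNf0 : N f ≠ 0 := (hΦ.hasFn f hf0).1
  have hft0 : f ^ t ≠ 0 := zpow_ne_zero t hf0
  have hord2 : ∀ w : Place K L,
      w.ord (N f) = w.ord (f ^ t * fixIncl c (normFn (fixIncl c) g₀)) := by
    intro w
    have e1 := (hΦ.hasFn f hf0).2 _ hSf w
    have e2 : Φ (D : Divisor K L) = t • (D : Divisor K L) +
        (Φ (D : Divisor K L) - t • (D : Divisor K L)) := by abel
    have e3 := (hSdcorr.hasFn g₀ hg₀).2 _ hg w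
    rw [AddMonoidHom.comp_apply, Function.comp_apply] at e3
    rw [← e1, h5, e2, map_add, map_add, map_zsmul, map_zsmul, Finsupp.add_apply,
      Finsupp.smul_apply, e3, hSf w, w.ord_mul hft0 hh₀0, w.ord_zpow, smul_eq_mul]
  obtain ⟨a, ha⟩ := hconst (N f * (f ^ t * fixIncl c (normFn (fixIncl c) g₀))⁻¹)
    (mul_ne_zero hNf0 (inv_ne_zero (mul_ne_zero hft0 hh₀0))) (fun v => by
      rw [v.ord_mul hNf0 (inv_ne_zero (mul_ne_zero hft0 hh₀0)), v.ord_inv, hord2 v,
        add_neg_cancel])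
  have hNf : N f = algebraMap K L a * (f ^ t * fixIncl c (normFn (fixIncl c) g₀)) := by
    rw [ha]
    field_simp
  -- apply `c`
  have h6 : c (N f) = algebraMap K L (ζ ^ n) * N f := by
    rw [← hNc, hcf, hNmul, hNK ζ hζ3]
  have h7 : c (N f) = algebraMap K L (ζ ^ t) * N f := by
    conv_lhs => rw [hNf]
    rw [map_mul, map_mul, map_zpow₀, hcf, fixIncl_fixed, AlgEquiv.commutes, mul_zpow,
      map_zpow₀]
    conv_rhs => rw [hNf]
    ring
  have h8 : ζ ^ (t - n) = 1 := by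
    have h9 : algebraMap K L (ζ ^ n) = algebraMap K L (ζ ^ t) :=
      mul_right_cancel₀ hNf0 (h6.symm.trans h7)
    have h10 : ζ ^ (n : ℤ) = ζ ^ t := by
      have := (algebraMap K L).injective h9
      rw [zpow_natCast]
      exact this
    rw [zpow_sub₀ hζ0, ← h10, div_self (zpow_ne_zero _ hζ0)]
  have hζ1 : ζ = 1 := eq_one_of_zpow hζ0 hζ3 (t - n) h8 hEis
  -- (5) `f` comes from the fixed field
  rw [hζ1, map_one, one_mul] at hcf
  obtain ⟨e, he⟩ := exists_fixIncl_eq c hcf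
  have he0 : e ≠ 0 := by
    rintro rfl
    rw [map_zero] at he
    exact hf0 he.symm
  -- (6) `φ_* D = div e`
  rw [pushP, picMap_mk hpush.isGood, pic0_mk_eq_zero_iff]
  refine ⟨e, he0, fun v => ?_⟩
  rw [coe_degZeroMap]
  have h11 := DFunLike.congr_fun (pushD_comp_pullD hE hL (fixIncl c))
    (pushD (fixIncl c) (D : Divisor K L))
  rw [AddMonoidHom.comp_apply, fix_finrank c hc3 hc1] at h11
  have h12 := (hpush.hasFn f hf0).2 _ hSf v
  rw [h11, ← he, normFn_apply_self, fix_finrank c hc3 hc1] at h12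
  rw [AddMonoidHom.smul_apply, AddMonoidHom.id_apply, Finsupp.smul_apply, ord_pow_nat] at h12
  have h13 : (3 : ℤ) * (pushD (fixIncl c) (D : Divisor K L)) v = 3 * v.ord e := by
    rw [nsmul_eq_mul] at h12
    exact_mod_cast h12
  exact mul_left_cancel₀ (by norm_num) h13

/-- **S3-H90, abstract form.** -/
theorem h90_eigen {F₀ : Type} [Field F₀] [Algebra K F₀]
    (hL : IsFF K L) (hF₀ : IsFF K F₀) (μ : F₀ →ₐ[K] L) (c : L ≃ₐ[K] L)
    (hμ : ∀ a, c (μ a) = μ a) (hc3 : c ^ 3 = 1) (hc1 : c ≠ 1)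
    {Φ : Divisor K L →+ Divisor K L} {N : L → L} {d : ℤ} (hΦ : IsCorr Φ N d)
    (hNmul : ∀ f g, N (f * g) = N f * N g) (hNc : ∀ f, N (c f) = c (N f))
    (n : ℕ) (hNK : ∀ ζ : K, ζ ^ 3 = 1 → N (algebraMap K L ζ) = algebraMap K L (ζ ^ n))
    (hd : d = n)
    (x : Pic0 K L) (h3 : (3 : ℤ) • x = 0) (hcx : c • x = x) (t : ℤ)
    (ht : picMap Φ x = t • x) (hEis : ¬ (3 : ℤ) ∣ t - d) :
    ∃ u : Pic0 K L, c • u - u = x := by
  have hE : IsFF K ↥(fixE c) := isFF_fixE hL hF₀ μ c hμ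
  have hpush : pushP (fixIncl c) x = 0 :=
    pushP_fix_eq_zero hL c hE hc3 hc1 hΦ hNmul hNc n hNK x h3 hcx t ht (by rw [← hd]; exact hEis)
  obtain ⟨u, hu⟩ := pionto_ker hE hL (fixIncl c) c 3 (by norm_num) hc3
    (fun x _ => fix_norm c hc3 hc1 x) hΦ (fun f _ => hNc f) x hpush
  rw [ht, ← sub_smul] at hu
  -- Bezout
  have hcop : IsCoprime (t - d) (3 : ℤ) := by
    have hp : Prime (3 : ℤ) := Int.prime_three
    exact (hp.coprime_iff_not_dvd.mpr hEis).symm
  obtain ⟨a, b, hab⟩ := hcop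
  refine ⟨a • u, ?_⟩
  have h1 : x = a • ((t - d) • x) + b • ((3 : ℤ) • x) := by
    rw [← mul_zsmul, ← mul_zsmul, ← add_zsmul, hab, one_zsmul]
  have h2 : c • (a • u) = a • (c • u) :=
    map_zsmul (DistribSMul.toAddMonoidHom (Pic0 K L) c) a u
  rw [h2, ← zsmul_sub, ← hu]
  conv_rhs => rw [h1, h3, zsmul_zero, add_zero]

end Main

end Fermat.Agent.S59.LL.SQ23.H36
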