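import Fermat.Agent.S59.LL.SQ23.Defs
import Fermat.Agent.NEB.OLD.H6_DegBeta

/-!
# S59 / LL / SQ23, leaf S3-DEG (helper55): the degrees in the `S₃`-cover `X₀(4M') → X₀(M')`

Level `M = 2M'`, `M'` odd; `α, β : F_M → F_{2M}` the two degeneracy maps (`f(τ)`, `f(2τ)`).

* `finrankAlong_alpha_two`, `finrankAlong_beta_two` : `[F_{2M} : α F_M] = 2 = [F_{2M} : β F_M]`;
* `finrank_fieldRange_alpha`, `finrank_fieldRange_beta` : the same as `Module.finrank` over the
  field ranges (intermediate fields of `F_{2M} / Q̄`);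
* `mid_square` : `β_M ∘ α_{M'} = α_M ∘ β_{M'}` (the middle map `μ : F_{M'} → F_{4M'}`);
* `finrankAlong_mid` : `[F_{4M'} : μ F_{M'}] = 6`;
* `alpha_jF_not_mem_range_beta`, `fieldRange_alpha_ne_beta` : `α F_M ≠ β F_M`
  (`j = q⁻¹ + ⋯ ∈ α F_M` has a non-zero coefficient at the odd exponent `-1`).

No `sorry`.
-/

set_option autoImplicit false
set_option linter.unusedVariables false
set_option linter.unusedSectionVars false

noncomputable section

namespace Fermat.Agent.S59.LL.SQ23.H55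

open AlgebraicCurve ModularCurve Fermat.Agent.S24 Fermat.Agent.S36.H44

local notation "Kb" => AlgebraicClosure ℚ

/-! ## 1. Generic: `finrankAlong` is the degree over the field range -/

theorem finrank_fieldRange_eq_finrankAlong {K F F' : Type*} [Field K] [Field F] [Field F']
    [Algebra K F] [Algebra K F'] (φ : F →ₐ[K] F') :
    Module.finrank ↥φ.fieldRange F' = finrankAlong K φ := by
  unfold AlgebraicCurve.finrankAlong
  let _ := AlgebraicCurve.algebraAlong φ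
  let i : F ≃+* ↥φ.fieldRange := (AlgEquiv.ofInjectiveField φ).toRingEquiv
  let j : F' ≃+* F' := RingEquiv.refl _
  refine (Algebra.finrank_eq_of_equiv_equiv i j ?_).symm
  ext x
  rfl

/-! ## 2. The two degrees `2` -/

/-- `[F_{2M} : α F_M] = 2` for `2 ∣ M`. -/
theorem finrankAlong_alpha_two (M : ℕ) [NeZero M] (h2 : 2 ∣ M) :
    finrankAlong Kb (heckeAlphaBar Kb M 2) = 2 :=
  Fermat.Agent.NEB.OLD.H6.finrankAlong_alpha_of_dvd M 2 Nat.prime_two h2

/-- `[F_{4M'} : β F_{2M'}] = 2` for `M'` odd. -/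
theorem finrankAlong_beta_two' (M' : ℕ) [NeZero M'] [NeZero (M' * 2)] (hM' : ¬ 2 ∣ M') :
    finrankAlong Kb (heckeBetaBar Kb (M' * 2) 2) = 2 :=
  Fermat.Agent.NEB.OLD.H6.stmt_DegBeta M' 2 Nat.prime_two hM'

/-- `[F_{2M} : β F_M] = 2` for `2 ∣ M`, `4 ∤ M`. -/
theorem finrankAlong_beta_two (M : ℕ) [hM0 : NeZero M] (h2 : 2 ∣ M) (h4 : ¬ 4 ∣ M) :
    finrankAlong Kb (heckeBetaBar Kb M 2) = 2 := by
  obtain ⟨M', hM'⟩ := h2
  have hM : M = M' * 2 := by omega
  subst hM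
  have hne : NeZero M' := ⟨fun h0 => hM0.out (by rw [h0, zero_mul])⟩
  have hodd : ¬ 2 ∣ M' := by
    intro h
    apply h4
    obtain ⟨k, hk⟩ := h
    exact ⟨k, by omega⟩
  exact finrankAlong_beta_two' M' hodd

theorem finrank_fieldRange_alpha (M : ℕ) [NeZero M] (h2 : 2 ∣ M) :
    Module.finrank ↥(heckeAlphaBar Kb M 2).fieldRange (FN (M * 2)) = 2 := by
  rw [finrank_fieldRange_eq_finrankAlong, finrankAlong_alpha_two M h2]

theorem finrank_fieldRange_beta (M : ℕ) [NeZero M] (h2 : 2 ∣ M) (h4 : ¬ 4 ∣ M) :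
    Module.finrank ↥(heckeBetaBar Kb M 2).fieldRange (FN (M * 2)) = 2 := by
  rw [finrank_fieldRange_eq_finrankAlong, finrankAlong_beta_two M h2 h4]

/-! ## 3. The middle map -/

/-- The commutative square `β_{2M'} ∘ α_{M'} = α_{2M'} ∘ β_{M'}`. -/
theorem mid_square (M' : ℕ) [NeZero M'] [NeZero (M' * 2)] :
    (heckeBetaBar Kb (M' * 2) 2).comp (heckeAlphaBar Kb M' 2)
      = (heckeAlphaBar Kb (M' * 2) 2).comp (heckeBetaBar Kb M' 2) := by
  apply AlgHom.ext
  intro x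
  apply Subtype.ext
  simp only [AlgHom.comp_apply, coe_heckeBetaBar, coe_heckeAlphaBar]

/-- `[F_{4M'} : μ F_{M'}] = 6` for `M'` odd, `μ = β_{2M'} ∘ α_{M'}`. -/
theorem finrankAlong_mid (M' : ℕ) [NeZero M'] [NeZero (M' * 2)] (hM' : ¬ 2 ∣ M') :
    finrankAlong Kb ((heckeBetaBar Kb (M' * 2) 2).comp (heckeAlphaBar Kb M' 2)) = 6 := by
  have h1 := finrank_comp_h44 (heckeAlphaBar Kb M' 2).toRingHom
    (heckeBetaBar Kb (M' * 2) 2).toRingHom
  have ha : finrankHom (heckeAlphaBar Kb M' 2).toRingHom = 2 + 1 :=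
    Fermat.Agent.RED.H95.finrankAlong_alpha Nat.prime_two hM'
  have hb : finrankHom (heckeBetaBar Kb (M' * 2) 2).toRingHom = 2 :=
    finrankAlong_beta_two' M' hM'
  rw [ha, hb] at h1
  exact h1

/-! ## 4. The two subfields are different -/

/-- The `q`-expansion of an element of `β F_M` has no odd exponent. -/
theorem coeff_beta_of_not_dvd (M : ℕ) [NeZero M] (g : FN M) {k : ℤ} (hk : ¬ (2 : ℤ) ∣ k) :
    ((heckeBetaBar Kb M 2 g : FN (M * 2)) : LaurentSeries Kb).coeff k = 0 := by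
  rw [coe_heckeBetaBar]
  exact qExpand_coeff_of_not_dvd 2 _ (by exact_mod_cast hk)

/-- The coefficient of `q⁻¹` in `j` is `1`. -/
theorem coeff_jF (M : ℕ) [NeZero M] :
    ((jF M : FN M) : LaurentSeries Kb).coeff (-1) = 1 := by
  show (coeffEmb Kb jq).coeff (-1) = 1
  rw [coeffEmb_coeff, coeff_jq_neg_one, map_one]

/-- `α j ∉ β F_M`. -/
theorem alpha_jF_not_mem_range_beta (M : ℕ) [NeZero M] (g : FN M) :
    heckeBetaBar Kb M 2 g ≠ heckeAlphaBar Kb M 2 (jF M) := by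
  intro h
  have h1 := coeff_beta_of_not_dvd M g (k := -1) (by decide)
  rw [h, coe_heckeAlphaBar, coeff_jF] at h1
  exact one_ne_zero h1

/-- `α F_M ≠ β F_M`. -/
theorem fieldRange_alpha_ne_beta (M : ℕ) [NeZero M] :
    (heckeAlphaBar Kb M 2).fieldRange ≠ (heckeBetaBar Kb M 2).fieldRange := by
  intro h
  have h1 : heckeAlphaBar Kb M 2 (jF M) ∈ (heckeAlphaBar Kb M 2).fieldRange := ⟨jF M, rfl⟩
  rw [h] at h1
  obtain ⟨g, hg⟩ := h1
  exact alpha_jF_not_mem_range_beta M g hg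

end Fermat.Agent.S59.LL.SQ23.H55
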