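import Mathlib
import Fermat.Agent.NEB.H29_PiOnto
import Fermat.Agent.RED.H36_Fin

/-!
# S59 / LL / SQ23 (q = 2, p = 3), leaf S3-H90 (helper63), abstract form

`K` algebraically closed, `L` a function field over `K`, `c` a `K`-automorphism of `L` with
`c ^ 3 = 1`, `E` the fixed field of `c` (`φ : E → L`, `φ (Norm x) = x · c x · c² x`, every
`c`-fixed function is in `φ E`), `Φ` a correspondence on `L` of degree `d` whose function `N`
commutes with `c` and satisfies `N (a f) = a ^ e N f` for constants `a` (`d = e`; for `T_ℓ`: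
`d = e = ℓ + 1`).

For `x ∈ Pic⁰(L)` with `3 x = 0`, `c x = x`, `Φ x = t x`, `3 ∤ t - d`  (an eigenvector which is not
Eisenstein):

* `zeta_exists` : `x = [D]`, `D + c D + c² D = div f`, `c f = ζ f`, `ζ ^ 3 = 1`;
* `zeta_eq_one` : `ζ = 1`  (`Φ` multiplies `ζ` by the exponent `e`, the eigenvalue by `t`);
* `push_eq_zero` : `π_* x = 0` in `Pic⁰(E)`;
* `s3_h90` : `x ∈ (c - 1) Pic⁰(L)`  (with TSEN + F1 in the form `NEB.H29.pionto_ker`).
-/

set_option autoImplicit false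
set_option linter.style.haveILetI false
set_option linter.unusedSectionVars false

noncomputable section

namespace Fermat.Agent.S59.LL.SQ23.H63

open AlgebraicCurve Fermat.Agent.RED Fermat.Agent.NEB.H14 Fermat.Agent.NEB.H29

variable {K E L : Type} [Field K] [Field E] [Field L] [Algebra K E] [Algebra K L] [IsAlgClosed K]

/-- `X = div f`. -/
def IsDiv (X : Divisor K L) (f : L) : Prop := ∀ v : Place K L, X v = v.ord f

theorem IsDiv.add {X Y : Divisor K L} {f g : L} (hX : IsDiv X f) (hY : IsDiv Y g) (hf : f ≠ 0)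
    (hg : g ≠ 0) : IsDiv (X + Y) (f * g) := fun v => by
  rw [Finsupp.add_apply, hX v, hY v, v.ord_mul hf hg]

theorem IsDiv.neg {X : Divisor K L} {f : L} (hX : IsDiv X f) : IsDiv (-X) f⁻¹ := fun v => by
  rw [Finsupp.neg_apply, hX v, v.ord_inv]

theorem IsDiv.sub {X Y : Divisor K L} {f g : L} (hX : IsDiv X f) (hY : IsDiv Y g) (hf : f ≠ 0)
    (hg : g ≠ 0) : IsDiv (X - Y) (f * g⁻¹) := by
  rw [sub_eq_add_neg]
  exact hX.add hY.neg hf (inv_ne_zero hg)

theorem IsDiv.zsmul {X : Divisor K L} {f : L} (hX : IsDiv X f) (n : ℤ) :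
    IsDiv (n • X) (f ^ n) := fun v => by
  rw [Finsupp.smul_apply, smul_eq_mul, hX v, v.ord_zpow]

theorem IsDiv.smul {X : Divisor K L} {f : L} (hX : IsDiv X f) (hf : f ≠ 0) (c : L ≃ₐ[K] L) :
    IsDiv (c • X) (c f) := fun v =>
  ((isCorr_smulD c).hasFn f hf).2 X hX v

/-- Two functions with the same divisor differ by a constant. -/
theorem IsDiv.const (hL : IsFF K L) {X : Divisor K L} {f g : L}
    (hX : IsDiv X f) (hY : IsDiv X g) (hf : f ≠ 0) (hg : g ≠ 0) :
    ∃ a : K, a ≠ 0 ∧ g = algebraMap K L a * f := by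
  obtain ⟨a, ha⟩ := H36.const_of_ord_eq_zero hL (g * f⁻¹) (mul_ne_zero hg (inv_ne_zero hf))
    (fun v => by rw [v.ord_mul hg (inv_ne_zero hf), v.ord_inv, ← hX v, ← hY v, add_neg_cancel])
  have ha0 : a ≠ 0 := by
    rintro rfl
    rw [map_zero] at ha
    exact mul_ne_zero hg (inv_ne_zero hf) ha
  refine ⟨a, ha0, ?_⟩
  rw [← ha]
  field_simp

/-- the norm of a divisor for the group `⟨c⟩` of order `3` -/
def normC (c : L ≃ₐ[K] L) (D : Divisor K L) : Divisor K L := D + c • D + (c ^ 2) • D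

theorem smul_normC (c : L ≃ₐ[K] L) (hc3 : c ^ 3 = 1) (D : Divisor K L) :
    c • normC c D = normC c D := by
  unfold normC
  have e1 : c * c = c ^ 2 := (pow_two c).symm
  have e2 : c * c ^ 2 = 1 := by rw [← pow_succ', hc3]
  rw [smul_add, smul_add, ← mul_smul, ← mul_smul, e1, e2, one_smul]
  abel

theorem normC_add (c : L ≃ₐ[K] L) (D D' : Divisor K L) :
    normC c (D + D') = normC c D + normC c D' := by
  unfold normC
  rw [smul_add, smul_add]
  abel

theorem normC_zsmul (c : L ≃ₐ[K] L) (n : ℤ) (D : Divisor K L) :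
    normC c (n • D) = n • normC c D := by
  unfold normC
  rw [smul_comm c n D, smul_comm (c ^ 2) n D, smul_add, smul_add]

/-- the norm of a function -/
def normF (c : L ≃ₐ[K] L) (g : L) : L := g * c g * (c ^ 2) g

theorem normF_ne_zero (c : L ≃ₐ[K] L) {g : L} (hg : g ≠ 0) : normF c g ≠ 0 := by
  unfold normF
  refine mul_ne_zero (mul_ne_zero hg ?_) ?_
  · exact (map_ne_zero_iff _ c.injective).2 hg
  · exact (map_ne_zero_iff _ (c ^ 2).injective).2 hg

theorem map_normF (c : L ≃ₐ[K] L) (hc3 : c ^ 3 = 1) (g : L) : c (normF c g) = normF c g := by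
  unfold normF
  have h2 : c ((c ^ 2) g) = g := by
    have : c ((c ^ 2) g) = (c ^ 3) g := by
      rw [pow_succ' c 2]
      rfl
    rw [this, hc3]
    rfl
  have h1 : c (c g) = (c ^ 2) g := by
    rw [pow_two]
    rfl
  rw [map_mul, map_mul, h2, h1]
  ring

theorem IsDiv.normC {X : Divisor K L} {g : L} (hX : IsDiv X g) (hg : g ≠ 0) (c : L ≃ₐ[K] L) :
    IsDiv (normC c X) (normF c g) := by
  unfold H63.normC normF
  have hcg : c g ≠ 0 := (map_ne_zero_iff _ c.injective).2 hg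
  exact (hX.add (hX.smul hg c) hg hcg).add (hX.smul hg (c ^ 2)) (mul_ne_zero hg hcg)
    ((map_ne_zero_iff _ (c ^ 2).injective).2 hg)

theorem map_const_mul (c : L ≃ₐ[K] L) (a : K) (f : L) :
    c (algebraMap K L a * f) = algebraMap K L a * c f := by
  rw [map_mul, AlgEquiv.commutes]

/-- **(a)**: the Kummer datum `(D, f, ζ)` of a class `x` with `3 x = 0`, `c x = x`. -/
theorem zeta_exists (hL : IsFF K L) (c : L ≃ₐ[K] L) (hc3 : c ^ 3 = 1) (x : Pic0 K L)
    (h3 : (3 : ℤ) • x = 0) (hcx : c • x = x) :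
    ∃ (D : Divisor.degZero (K := K) (F := L)) (f : L) (ζ : K), f ≠ 0 ∧ ζ ^ 3 = 1 ∧
      Pic0.mk D = x ∧ IsDiv (normC c (D : Divisor K L)) f ∧ c f = algebraMap K L ζ * f := by
  obtain ⟨D, rfl⟩ := Pic0.mk_surjective x
  have hN : Pic0.mk (D + Pic0.degZeroSMulHom c D + Pic0.degZeroSMulHom (c ^ 2) D) = 0 := by
    rw [Pic0.mk_add, Pic0.mk_add, ← Pic0.smul_mk, ← Pic0.smul_mk, sq, mul_smul, hcx, hcx]
    have : (3 : ℤ) • Pic0.mk D = Pic0.mk D + Pic0.mk D + Pic0.mk D := by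
      abel
    rw [← this, h3]
  rw [pic0_mk_eq_zero_iff] at hN
  obtain ⟨f, hf, hDf⟩ := hN
  have hdiv : IsDiv (normC c (D : Divisor K L)) f := fun v => hDf v
  have hcf : c f ≠ 0 := (map_ne_zero_iff _ c.injective).2 hf
  have hdiv' : IsDiv (normC c (D : Divisor K L)) (c f) := by
    have := hdiv.smul hf c
    rwa [smul_normC c hc3] at this
  obtain ⟨ζ, hζ0, hζ⟩ := hdiv.const hL hdiv' hf hcf
  refine ⟨D, f, ζ, hf, ?_, rfl, hdiv, hζ⟩
  -- `ζ ^ 3 = 1`
  have h1 : (c ^ 3) f = algebraMap K L (ζ ^ 3) * f := by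
    have e : (c ^ 3) f = c (c (c f)) := by
      rw [pow_succ, pow_two]
      rfl
    have e1 : c (c f) = algebraMap K L ζ * (algebraMap K L ζ * f) := by
      rw [hζ, map_const_mul, hζ]
    have e2 : c (c (c f)) = algebraMap K L ζ * (algebraMap K L ζ * (algebraMap K L ζ * f)) := by
      rw [e1, map_const_mul, map_const_mul, hζ]
    rw [e, e2, map_pow]
    ring
  rw [hc3] at h1
  have h2 : (algebraMap K L (ζ ^ 3) - 1) * f = 0 := by
    rw [sub_mul, one_mul, ← h1]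
    exact sub_self _
  rcases mul_eq_zero.1 h2 with h | h
  · have h4 : algebraMap K L (ζ ^ 3) = algebraMap K L 1 := by
      rw [map_one]
      exact sub_eq_zero.1 h
    exact (algebraMap K L).injective h4
  · exact absurd h hf

/-- a cube root of unity with `ζ ^ m = 1`, `3 ∤ m`, is `1` -/
theorem eq_one_of_zpow {ζ : K} (hζ3 : ζ ^ 3 = 1) {m : ℤ} (hm : ζ ^ m = 1) (h3 : ¬ (3 : ℤ) ∣ m) :
    ζ = 1 := by
  have hζ0 : ζ ≠ 0 := by
    rintro rfl
    rw [zero_pow (by norm_num)] at hζ3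
    exact zero_ne_one hζ3
  obtain ⟨u, v, huv⟩ := (Int.prime_three.coprime_iff_not_dvd).2 h3
  have h1 : ζ ^ (u * 3 + v * m) = 1 := by
    rw [zpow_add₀ hζ0, mul_comm u 3, mul_comm v m, zpow_mul, zpow_mul, hm, one_zpow, mul_one]
    have : ζ ^ (3 : ℤ) = 1 := by
      rw [show (3 : ℤ) = ((3 : ℕ) : ℤ) by norm_num, zpow_natCast, hζ3]
    rw [this, one_zpow]
  rw [huv, zpow_one] at h1
  exact h1

/-- `Φ` commutes with the norm `1 + c + c²` on divisors. -/
theorem map_normC (hL : IsFF K L) (c : L ≃ₐ[K] L)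
    {Φ : Divisor K L →+ Divisor K L} {N : L → L} {d : ℤ} (hΦ : IsCorr Φ N d)
    (hNc : ∀ f, f ≠ 0 → N (c f) = c (N f)) (D : Divisor K L) :
    Φ (normC c D) = normC c (Φ D) := by
  unfold normC
  rw [map_add, map_add, corr_smul_comm hL hΦ c hNc, sq, mul_smul, corr_smul_comm hL hΦ c hNc,
    corr_smul_comm hL hΦ c hNc, mul_smul]

/-- **(b)**: for an eigenvector which is not Eisenstein, `ζ = 1`. -/
theorem zeta_eq_one (hL : IsFF K L) (c : L ≃ₐ[K] L) (hc3 : c ^ 3 = 1)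
    {Φ : Divisor K L →+ Divisor K L} {N : L → L} {d : ℤ} (hΦ : IsCorr Φ N d)
    (hNc : ∀ f, f ≠ 0 → N (c f) = c (N f)) (e : ℕ)
    (hNK : ∀ (a : K) (f : L), a ≠ 0 → f ≠ 0 →
      N (algebraMap K L a * f) = algebraMap K L (a ^ e) * N f)
    (D : Divisor.degZero (K := K) (F := L)) (f : L) (ζ : K) (hf : f ≠ 0) (hζ3 : ζ ^ 3 = 1)
    (hdiv : IsDiv (normC c (D : Divisor K L)) f) (hζ : c f = algebraMap K L ζ * f)
    (t : ℤ) (hx : picMap Φ (Pic0.mk D) = t • Pic0.mk D) (hte : ¬ (3 : ℤ) ∣ t - e) :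
    ζ = 1 := by
  have hζ0 : ζ ≠ 0 := by
    rintro rfl
    rw [zero_pow (by norm_num)] at hζ3
    exact zero_ne_one hζ3
  -- `Φ D - t D = div g`
  have e1 : ∀ (m : ℤ) (X : Divisor.degZero (K := K) (F := L)), m • Pic0.mk X = Pic0.mk (m • X) :=
    fun m X => rfl
  have e2 : ∀ X Y : Divisor.degZero (K := K) (F := L), Pic0.mk X - Pic0.mk Y = Pic0.mk (X - Y) :=
    fun X Y => rfl
  have h0 : Pic0.mk (degZeroMap Φ hΦ.isGood D - t • D) = 0 := by
    rw [← e2, ← e1, ← picMap_mk hΦ.isGood, hx, sub_self]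
  rw [pic0_mk_eq_zero_iff] at h0
  obtain ⟨g, hg, hDg⟩ := h0
  have hg' : IsDiv (Φ (D : Divisor K L) - t • (D : Divisor K L)) g := fun v => hDg v
  -- the two functions of `Φ (N_c D)`
  have hA : IsDiv (Φ (normC c (D : Divisor K L))) (N f) := fun w =>
    (hΦ.hasFn f hf).2 _ hdiv w
  have hNf : N f ≠ 0 := (hΦ.hasFn f hf).1
  have hft : f ^ t ≠ 0 := zpow_ne_zero t hf
  have hB : IsDiv (Φ (normC c (D : Divisor K L))) (f ^ t * normF c g) := by
    have h1 : Φ (normC c (D : Divisor K L)) =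
        t • normC c (D : Divisor K L) + normC c (Φ (D : Divisor K L) - t • (D : Divisor K L)) := by
      rw [map_normC hL c hΦ hNc, ← normC_zsmul, ← normC_add]
      congr 1
      abel
    rw [h1]
    exact (hdiv.zsmul t).add (hg'.normC hg c) hft (normF_ne_zero c hg)
  obtain ⟨a, ha0, ha⟩ := hB.const hL hA (mul_ne_zero hft (normF_ne_zero c hg)) hNf
  -- apply `c`
  have h2 : c (N f) = algebraMap K L (ζ ^ e) * N f := by
    rw [← hNc f hf, hζ, hNK ζ f hζ0 hf]
  have h3 : c (N f) = algebraMap K L (ζ ^ t) * N f := by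
    conv_lhs => rw [ha]
    rw [map_const_mul, map_mul, map_zpow₀, hζ, map_normF c hc3, mul_zpow, ha, map_zpow₀]
    ring
  have h4 : algebraMap K L (ζ ^ e) = algebraMap K L (ζ ^ t) := by
    have := h2.symm.trans h3
    exact mul_right_cancel₀ hNf this
  have h5 : ζ ^ (e : ℤ) = ζ ^ t := by
    rw [zpow_natCast]
    exact (algebraMap K L).injective h4
  have h6 : ζ ^ (t - e) = 1 := by
    rw [zpow_sub₀ hζ0, ← h5]
    exact div_self (zpow_ne_zero _ hζ0)
  exact eq_one_of_zpow hζ3 h6 hte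

end Fermat.Agent.S59.LL.SQ23.H63
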