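import Mathlib

/-!
# S59 / LL / SQ23, leaf S3-HECKE (helper6): abstract field theory

* `deck_restrict` : restriction of a deck involution to a stable quadratic subfield.  In a
  commutative square of fields `a ∘ b = b' ∘ a₂`, if `s` is an involution of the source of `a`
  with fixed field the range of `b`, `s'` is an automorphism of the target of `a` with fixed field
  the range of `b'`, and the range of `a` is not contained in the range of `b'`, then
  `s' ∘ a = a ∘ s`.
* `exists_deck_of_finrank_two` : a field extension of degree `2` in characteristic `0` has a deck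
  involution (over any base field `K`).
* `norm_comm_of_intertwine` : the norm along `φ` commutes with automorphisms intertwined by `φ`.
-/

set_option autoImplicit false
set_option linter.unusedSectionVars false
set_option linter.unusedVariables false
set_option linter.style.haveILetI false

noncomputable section

namespace Fermat.Agent.S59.LL.SQ23.H6

section Restrict

variable {F₂ F₄ G₂ G₄ : Type*} [Field F₂] [Field F₄] [Field G₂] [Field G₄]

/-- **Restriction of a deck involution to a stable quadratic subfield.** -/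
theorem deck_restrict (a : F₄ →+* G₄) (b : F₂ →+* F₄) (b' : G₂ →+* G₄) (a₂ : F₂ →+* G₂)
    (hsq : ∀ z, a (b z) = b' (a₂ z))
    (s : F₄ ≃+* F₄) (hs2 : ∀ x, s (s x) = x) (hsfix : ∀ x, s x = x → ∃ z, b z = x)
    (s' : G₄ ≃+* G₄) (hs'b : ∀ y, s' (b' y) = b' y) (hs'fix : ∀ y, s' y = y → ∃ z, b' z = y)
    (x₀ : F₄) (hx₀ : ∀ z, b' z ≠ a x₀) :
    ∀ x, s' (a x) = a (s x) := by
  -- `a` of an `s`-fixed element is `s'`-fixed
  have hfix : ∀ x, s x = x → s' (a x) = a x := by
    intro x hx
    obtain ⟨z, rfl⟩ := hsfix x hx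
    rw [hsq, hs'b]
  -- the case of `x₀`
  have hx₀s : s x₀ ≠ x₀ := by
    intro h
    obtain ⟨z, hz⟩ := hsfix x₀ h
    exact hx₀ (a₂ z) (by rw [← hsq, hz])
  have hx₀s' : s' (a x₀) ≠ a x₀ := by
    intro h
    obtain ⟨z, hz⟩ := hs'fix _ h
    exact hx₀ z hz
  have ht : s (x₀ + s x₀) = x₀ + s x₀ := by rw [map_add, hs2, add_comm]
  have hn : s (x₀ * s x₀) = x₀ * s x₀ := by rw [map_mul, hs2, mul_comm]
  have hkey : (s' (a x₀) - a x₀) * (s' (a x₀) - a (s x₀)) = 0 := by
    have h1 : a x₀ * a x₀ - a (x₀ + s x₀) * a x₀ + a (x₀ * s x₀) = 0 := by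
      rw [← map_mul, ← map_mul, ← map_sub, ← map_add]
      have : x₀ * x₀ - (x₀ + s x₀) * x₀ + x₀ * s x₀ = 0 := by ring
      rw [this, map_zero]
    have h2 := congrArg s' h1
    rw [map_zero, map_add, map_sub, map_mul, map_mul, hfix _ ht, hfix _ hn] at h2
    rw [map_add, map_mul] at h2
    have : (s' (a x₀) - a x₀) * (s' (a x₀) - a (s x₀))
        = s' (a x₀) * s' (a x₀) - (a x₀ + a (s x₀)) * s' (a x₀) + a x₀ * a (s x₀) := by ring
    rw [this, h2]
  have h0 : s' (a x₀) = a (s x₀) := by
    rcases mul_eq_zero.mp hkey with h | h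
    · exact absurd (sub_eq_zero.mp h) hx₀s'
    · exact sub_eq_zero.mp h
  -- the general case: `x = u + v x₀` with `u`, `v` fixed by `s`
  intro x
  have hd : x₀ - s x₀ ≠ 0 := fun h => hx₀s (sub_eq_zero.mp h).symm
  set v : F₄ := (x - s x) / (x₀ - s x₀) with hv
  set u : F₄ := x - v * x₀ with hu
  have hsv : s v = v := by
    rw [hv, map_div₀, map_sub, map_sub, hs2, hs2]
    rw [div_eq_div_iff (fun h => hd (by
      have := sub_eq_zero.mp h
      rw [this, sub_self])) hd]
    ring
  have hvd : v * (x₀ - s x₀) = x - s x := by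
    rw [hv, div_mul_cancel₀ _ hd]
  have hsu : s u = u := by
    rw [hu, map_sub, map_mul, hsv]
    have : x - v * x₀ - (s x - v * s x₀) = (x - s x) - v * (x₀ - s x₀) := by ring
    have h3 : x - v * x₀ - (s x - v * s x₀) = 0 := by rw [this, hvd, sub_self]
    exact (sub_eq_zero.mp h3).symm
  have hx : x = u + v * x₀ := by rw [hu]; ring
  have hsx : s x = u + v * s x₀ := by
    conv_lhs => rw [hx]
    rw [map_add, map_mul, hsu, hsv]
  rw [hsx]
  conv_lhs => rw [hx]
  rw [map_add, map_mul, map_add, map_mul, hfix u hsu, hfix v hsv, h0, map_add, map_mul]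

end Restrict

section Deck

variable {K F F' : Type*} [Field K] [Field F] [Field F'] [Algebra K F] [Algebra K F']

/-- A field extension of degree `2` in characteristic `0` has a deck involution. -/
theorem exists_deck_of_finrank_two [CharZero F] (φ : F →ₐ[K] F')
    (h2 : letI := φ.toRingHom.toAlgebra; Module.finrank F F' = 2) :
    ∃ s : F' ≃ₐ[K] F', (∀ y, s (s y) = y) ∧ (∀ z, s (φ z) = φ z) ∧
      (∀ y, s y = y → ∃ z, φ z = y) ∧ (∃ y, s y ≠ y) := by
  letI := φ.toRingHom.toAlgebra
  haveI : IsScalarTower K F F' := IsScalarTower.of_algebraMap_eq fun k => (φ.commutes k).symm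
  haveI : Algebra.IsQuadraticExtension F F' := ⟨h2⟩
  haveI : FiniteDimensional F F' := Module.finite_of_finrank_pos (by rw [h2]; norm_num)
  haveI : IsGalois F F' := inferInstance
  have hcard : Nat.card (F' ≃ₐ[F] F') = 2 := by
    rw [IsGalois.card_aut_eq_finrank, h2]
  haveI : Finite (F' ≃ₐ[F] F') := Nat.finite_of_card_ne_zero (by rw [hcard]; norm_num)
  -- a non-trivial element
  obtain ⟨σ, hσ⟩ : ∃ σ : F' ≃ₐ[F] F', σ ≠ 1 := by
    by_contra hcon
    push Not at hcon
    haveI : Subsingleton (F' ≃ₐ[F] F') := ⟨fun a b => (hcon a).trans (hcon b).symm⟩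
    have := Nat.card_of_subsingleton (1 : F' ≃ₐ[F] F')
    omega
  -- every element is `1` or `σ`
  have hall : ∀ τ : F' ≃ₐ[F] F', τ = 1 ∨ τ = σ := by
    intro τ
    by_contra hcon
    push Not at hcon
    haveI : Fintype (F' ≃ₐ[F] F') := Fintype.ofFinite _
    classical
    have h3 : ({1, σ, τ} : Finset (F' ≃ₐ[F] F')).card = 3 := by
      rw [Finset.card_insert_of_notMem, Finset.card_insert_of_notMem, Finset.card_singleton]
      · simp only [Finset.mem_singleton]; exact fun h => hcon.2 h.symm
      · simp only [Finset.mem_insert, Finset.mem_singleton, not_or]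
        exact ⟨fun h => hσ h.symm, fun h => hcon.1 h.symm⟩
    have h4 := Finset.card_le_univ ({1, σ, τ} : Finset (F' ≃ₐ[F] F'))
    rw [h3, ← Nat.card_eq_fintype_card, hcard] at h4
    omega
  have hσ2 : σ * σ = 1 := by
    rcases hall (σ * σ) with h | h
    · exact h
    · exfalso
      apply hσ
      have := congrArg (fun t => σ⁻¹ * t) h
      simpa using this
  refine ⟨σ.restrictScalars K, ?_, ?_, ?_, ?_⟩
  · intro y
    have := congrArg (fun t : F' ≃ₐ[F] F' => t y) hσ2
    simpa using this
  · intro z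
    exact σ.commutes z
  · intro y hy
    have hmem : y ∈ Set.range (algebraMap F F') := by
      rw [IsGalois.mem_range_algebraMap_iff_fixed]
      intro τ
      rcases hall τ with rfl | rfl
      · rfl
      · exact hy
    obtain ⟨z, hz⟩ := hmem
    exact ⟨z, hz⟩
  · by_contra hcon
    push Not at hcon
    apply hσ
    ext y
    exact hcon y

/-- The norm along `φ` commutes with automorphisms intertwined by `φ`. -/
theorem norm_comm_of_intertwine (φ : F →ₐ[K] F') (σ : F ≃ₐ[K] F) (σ' : F' ≃ₐ[K] F')
    (h : ∀ x, σ' (φ x) = φ (σ x)) (y : F') :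
    letI := φ.toRingHom.toAlgebra
    Algebra.norm F (σ' y) = σ (Algebra.norm F y) := by
  letI := φ.toRingHom.toAlgebra
  have he : RingHom.comp (algebraMap F F') ((σ : F ≃+* F) : F →+* F)
      = RingHom.comp ((σ' : F' ≃+* F') : F' →+* F') (algebraMap F F') := by
    ext x
    exact (h x).symm
  have := Algebra.norm_eq_of_equiv_equiv (σ : F ≃+* F) (σ' : F' ≃+* F') he y
  rw [this]
  exact (RingEquiv.apply_symm_apply (σ : F ≃+* F) _).symm ▸ rfl

end Deck

end Fermat.Agent.S59.LL.SQ23.H6
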