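import Fermat.Agent.S59.LL.SQ23.Defs
import Fermat.Agent.S59.LL.SQ23.H6_S3Abs
import Fermat.Agent.L.Pivot.Geom.H24_B2BetaDeg
import Fermat.Agent.S59.LL.SQ.H33_CompEisHecke
import Fermat.Agent.GTor.H2_Equivariance
import Fermat.Agent.BAD.H82_KronF

/-!
# S59 / LL / SQ23, leaf S3-HECKE (helper6): the deck involutions commute with `T_ℓ`

Level `M * 2` with `2 ∣ M`, `G : S3Gal M` (deck involutions `s₀` of `β₂`, `s₁` of `α₂`),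
`ℓ` a prime, `ℓ ∤ M * 2`.

* `exists_deck_betaLift`, `exists_deck_alphaLift` : the deck involutions `s₀'`, `s₁'` of
  `F_{2Mℓ}` over `β₂ F_{Mℓ}`, resp. `F_{Mℓ}`;
* `s3_lift` : `s₀' α_ℓ = α_ℓ s₀`, `s₀' β_ℓ = β_ℓ s₀`, `s₁' α_ℓ = α_ℓ s₁`, `s₁' β_ℓ = β_ℓ s₁`
  (restriction of a deck involution to a stable quadratic subfield, `deck_restrict`; the
  non-containment comes from helper44's generation statements `adjoin_alpha_jdF`,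
  `adjoin_beta_jdF`);
* `heckeNormFn_s0`, `heckeNormFn_s1`, `heckeNormFn_c`, `heckeNormFn_c'` : the Kummer function
  `T_ℓ f = Norm_α (β f)` commutes with `s₀`, `s₁`, `s₀ s₁`, `s₁ s₀` (**hNc** of `h90_eigen`);
* `heckeDiv_s0`, `heckeDiv_s1` : the Hecke correspondence on divisors commutes with `s₀`, `s₁`;
  `heckePic0_s0`, `heckePic0_s1` : the same on `Pic⁰`.
-/

set_option autoImplicit false
set_option linter.unusedSectionVars false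
set_option linter.unusedVariables false
set_option linter.style.haveILetI false
set_option synthInstance.maxHeartbeats 400000
set_option maxHeartbeats 1000000

noncomputable section

namespace Fermat.Agent.S59.LL.SQ23.H6

open AlgebraicCurve ModularCurve Fermat.Agent.S24 Fermat.Agent.S36.H44
  Fermat.Agent.Lib.HeckeComm

local notation "Kb" => AlgebraicClosure ℚ

/-! ## The abstract lift -/

section AbsLift

variable {K F₂ F₄ G₂ G₄ : Type*} [Field K] [Field F₂] [Field F₄] [Field G₂] [Field G₄]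
  [Algebra K F₂] [Algebra K F₄] [Algebra K G₂] [Algebra K G₄]

/-- The deck involution `s'` of the upper level restricts to the deck involution `s` of the lower
level, as soon as the upper field is generated by the lower field and an element of the fixed
field of `s'`. -/
theorem deck_lift (a : F₄ →ₐ[K] G₄) (b : F₂ →ₐ[K] F₄) (b' : G₂ →ₐ[K] G₄) (a₂ : F₂ →ₐ[K] G₂)
    (hsq : ∀ z, a (b z) = b' (a₂ z))
    (s : F₄ ≃ₐ[K] F₄) (hs2 : ∀ x, s (s x) = x) (hsfix : ∀ x, s x = x → ∃ z, b z = x)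
    (s' : G₄ ≃ₐ[K] G₄) (hs'b : ∀ y, s' (b' y) = b' y)
    (hs'fix : ∀ y, s' y = y → ∃ z, b' z = y) (hs'ne : ∃ y, s' y ≠ y)
    (t : G₄) (hgen : IntermediateField.adjoin K (Set.range a ∪ {t}) = ⊤)
    (ht : ∃ z, b' z = t) :
    ∀ x, s' (a x) = a (s x) := by
  obtain ⟨x₀, hx₀⟩ : ∃ x₀, ∀ z, b' z ≠ a x₀ := by
    by_contra hcon
    push Not at hcon
    obtain ⟨y, hy⟩ := hs'ne
    apply hy
    have hle : IntermediateField.adjoin K (Set.range a ∪ {t}) ≤ b'.fieldRange := by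
      rw [IntermediateField.adjoin_le_iff]
      rintro w (⟨x, rfl⟩ | rfl)
      · obtain ⟨z, hz⟩ := hcon x
        exact ⟨z, hz⟩
      · obtain ⟨z, hz⟩ := ht
        exact ⟨z, hz⟩
    have hy' : y ∈ b'.fieldRange := hle (by rw [hgen]; exact IntermediateField.mem_top)
    obtain ⟨z, rfl⟩ := hy'
    exact hs'b z
  exact deck_restrict (a : F₄ →+* G₄) (b : F₂ →+* F₄) (b' : G₂ →+* G₄) (a₂ : F₂ →+* G₂) hsq
    (s : F₄ ≃+* F₄) hs2 hsfix (s' : G₄ ≃+* G₄) hs'b hs'fix x₀ hx₀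

end AbsLift

/-! ## The modular instance -/

section Modular

variable (M ℓ : ℕ) [NeZero M] [NeZero ℓ]

theorem charZero_FN (N : ℕ) [NeZero N] : CharZero (FN N) :=
  charZero_of_injective_algebraMap (algebraMap Kb (FN N)).injective

/-- The deck involution of `F_{2Mℓ}` over `β₂ F_{Mℓ}`. -/
theorem exists_deck_betaLift (h2 : 2 ∣ M) (hℓ : ℓ.Prime) (hℓM : ¬ ℓ ∣ M * 2) :
    ∃ s : FN (M * 2 * ℓ) ≃ₐ[Kb] FN (M * 2 * ℓ), (∀ y, s (s y) = y) ∧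
      (∀ z, s (betaLift M 2 ℓ z) = betaLift M 2 ℓ z) ∧
      (∀ y, s y = y → ∃ z, betaLift M 2 ℓ z = y) ∧ (∃ y, s y ≠ y) := by
  haveI := charZero_FN (M * ℓ)
  apply exists_deck_of_finrank_two (betaLift M 2 ℓ)
  have h1 := betaLift_finrank M 2 ℓ hℓ hℓM
  have h3 := Fermat.Agent.L.Pivot.Geom.H24.finrank_beta_of_dvd M 2 Nat.prime_two h2
  exact h1.symm.trans h3

/-- The deck involution of `F_{2Mℓ}` over `F_{Mℓ}`. -/
theorem exists_deck_alphaLift (h2 : 2 ∣ M) (hℓ : ℓ.Prime) (hℓM : ¬ ℓ ∣ M * 2) :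
    ∃ s : FN (M * 2 * ℓ) ≃ₐ[Kb] FN (M * 2 * ℓ), (∀ y, s (s y) = y) ∧
      (∀ z, s (alphaLift M 2 ℓ z) = alphaLift M 2 ℓ z) ∧
      (∀ y, s y = y → ∃ z, alphaLift M 2 ℓ z = y) ∧ (∃ y, s y ≠ y) := by
  haveI := charZero_FN (M * ℓ)
  apply exists_deck_of_finrank_two (alphaLift M 2 ℓ)
  have h1 := alphaLift_finrank M 2 ℓ hℓ hℓM
  have h3 := Fermat.Agent.NEB.OLD.H6.finrankAlong_alpha_of_dvd M 2 Nat.prime_two h2
  exact h1.symm.trans h3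

/-! ### The four generation statements -/

theorem gen_alpha (hℓ : ℓ.Prime) (hℓM : ¬ ℓ ∣ M * 2) (d : ℕ) [NeZero d] (hd : d ∣ M * 2) :
    IntermediateField.adjoin Kb (Set.range (heckeAlphaBar Kb (M * 2) ℓ)
      ∪ {heckeBetaBar Kb (M * 2) ℓ (jdF (M * 2) d hd)}) = ⊤ :=
  adjoin_range_union_eq_top (heckeAlphaBar Kb (M * 2) ℓ) _
    (Fermat.Agent.S35.H44.adjoin_alpha_jdF (N := M * 2) hℓ hℓM d hd)

theorem gen_beta (hℓ : ℓ.Prime) (hℓM : ¬ ℓ ∣ M * 2) (d : ℕ) [NeZero d] (hd : d ∣ M * 2) :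
    IntermediateField.adjoin Kb (Set.range (heckeBetaBar Kb (M * 2) ℓ)
      ∪ {jdF (M * 2 * ℓ) d (dvd_mul_of_dvd_left hd ℓ)}) = ⊤ :=
  adjoin_range_union_eq_top (heckeBetaBar Kb (M * 2) ℓ) _
    (adjoin_beta_jdF (N := M * 2) hℓ hℓM d hd)

/-- `β_ℓ (j (q²)) = β₂ (j (q^ℓ))`. -/
theorem t_alpha_s0 :
    betaLift M 2 ℓ (jdF (M * ℓ) ℓ (dvd_mul_left ℓ M))
      = heckeBetaBar Kb (M * 2) ℓ (jdF (M * 2) 2 (dvd_mul_left 2 M)) := by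
  apply Subtype.ext
  rw [coe_betaLift, coe_heckeBetaBar, Fermat.Agent.BAD.H82.coe_jdF,
    Fermat.Agent.BAD.H82.coe_jdF]
  exact qExpand_comm 2 ℓ _

/-- `j (q²) = β₂ (j)`. -/
theorem t_beta_s0 :
    betaLift M 2 ℓ (jdF (M * ℓ) 1 (one_dvd _))
      = jdF (M * 2 * ℓ) 2 (dvd_mul_of_dvd_left (dvd_mul_left 2 M) ℓ) := by
  apply Subtype.ext
  rw [coe_betaLift, Fermat.Agent.BAD.H82.coe_jdF_one, Fermat.Agent.BAD.H82.coe_jdF]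

/-- `β_ℓ (j) = j (q^ℓ)`. -/
theorem t_alpha_s1 :
    alphaLift M 2 ℓ (jdF (M * ℓ) ℓ (dvd_mul_left ℓ M))
      = heckeBetaBar Kb (M * 2) ℓ (jdF (M * 2) 1 (one_dvd _)) := by
  apply Subtype.ext
  rw [coe_alphaLift, coe_heckeBetaBar, Fermat.Agent.BAD.H82.coe_jdF,
    Fermat.Agent.BAD.H82.coe_jdF_one]

/-- `j = j`. -/
theorem t_beta_s1 :
    alphaLift M 2 ℓ (jdF (M * ℓ) 1 (one_dvd _))
      = jdF (M * 2 * ℓ) 1 (dvd_mul_of_dvd_left (one_dvd (M * 2)) ℓ) := by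
  apply Subtype.ext
  rw [coe_alphaLift, Fermat.Agent.BAD.H82.coe_jdF_one, Fermat.Agent.BAD.H82.coe_jdF_one]

variable {M}

/-- **The lifts of `s₀`, `s₁` to level `2Mℓ`**, compatible with `α_ℓ` and `β_ℓ`. -/
theorem s3_lift (G : S3Gal M) (h2 : 2 ∣ M) (hℓ : ℓ.Prime) (hℓM : ¬ ℓ ∣ M * 2) :
    ∃ s0' s1' : FN (M * 2 * ℓ) ≃ₐ[Kb] FN (M * 2 * ℓ),
      (∀ f, s0' (heckeAlphaBar Kb (M * 2) ℓ f) = heckeAlphaBar Kb (M * 2) ℓ (G.s0 f)) ∧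
      (∀ f, s0' (heckeBetaBar Kb (M * 2) ℓ f) = heckeBetaBar Kb (M * 2) ℓ (G.s0 f)) ∧
      (∀ f, s1' (heckeAlphaBar Kb (M * 2) ℓ f) = heckeAlphaBar Kb (M * 2) ℓ (G.s1 f)) ∧
      (∀ f, s1' (heckeBetaBar Kb (M * 2) ℓ f) = heckeBetaBar Kb (M * 2) ℓ (G.s1 f)) := by
  obtain ⟨s0', h0a, h0b, h0c, h0d⟩ := exists_deck_betaLift M ℓ h2 hℓ hℓM
  obtain ⟨s1', h1a, h1b, h1c, h1d⟩ := exists_deck_alphaLift M ℓ h2 hℓ hℓM
  refine ⟨s0', s1', ?_, ?_, ?_, ?_⟩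
  · exact deck_lift (heckeAlphaBar Kb (M * 2) ℓ) (heckeBetaBar Kb M 2) (betaLift M 2 ℓ)
      (heckeAlphaBar Kb M ℓ) (fun z => RingHom.congr_fun (beta_square M 2 ℓ) z)
      G.s0 G.s0_s0 G.s0_fixed s0' h0b h0c h0d _
      (gen_alpha M ℓ hℓ hℓM 2 (dvd_mul_left 2 M)) ⟨_, t_alpha_s0 M ℓ⟩
  · exact deck_lift (heckeBetaBar Kb (M * 2) ℓ) (heckeBetaBar Kb M 2) (betaLift M 2 ℓ)
      (heckeBetaBar Kb M ℓ) (fun z => beta_square_beta M 2 ℓ z)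
      G.s0 G.s0_s0 G.s0_fixed s0' h0b h0c h0d _
      (gen_beta M ℓ hℓ hℓM 2 (dvd_mul_left 2 M)) ⟨_, t_beta_s0 M ℓ⟩
  · exact deck_lift (heckeAlphaBar Kb (M * 2) ℓ) (heckeAlphaBar Kb M 2) (alphaLift M 2 ℓ)
      (heckeAlphaBar Kb M ℓ) (fun z => RingHom.congr_fun (alpha_square M 2 ℓ) z)
      G.s1 G.s1_s1 G.s1_fixed s1' h1b h1c h1d _
      (gen_alpha M ℓ hℓ hℓM 1 (one_dvd _)) ⟨_, t_alpha_s1 M ℓ⟩
  · exact deck_lift (heckeBetaBar Kb (M * 2) ℓ) (heckeAlphaBar Kb M 2) (alphaLift M 2 ℓ)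
      (heckeBetaBar Kb M ℓ) (fun z => alpha_square_beta M 2 ℓ z)
      G.s1 G.s1_s1 G.s1_fixed s1' h1b h1c h1d _
      (gen_beta M ℓ hℓ hℓM 1 (one_dvd _)) ⟨_, t_beta_s1 M ℓ⟩

end Modular

/-! ## Consequences: `T_ℓ` commutes with the deck involutions -/

section Comm

variable (N ℓ : ℕ) [NeZero N] [NeZero ℓ]

/-- The Kummer function `T_ℓ f = Norm_α (β f)` commutes with an automorphism which lifts to level
`N ℓ` compatibly with `α_ℓ` and `β_ℓ`. -/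
theorem heckeNormFn_comm_of_lift (σ : FN N ≃ₐ[Kb] FN N) (σ' : FN (N * ℓ) ≃ₐ[Kb] FN (N * ℓ))
    (hα : ∀ f, σ' (heckeAlphaBar Kb N ℓ f) = heckeAlphaBar Kb N ℓ (σ f))
    (hβ : ∀ f, σ' (heckeBetaBar Kb N ℓ f) = heckeBetaBar Kb N ℓ (σ f)) (f : FN N) :
    Fermat.Agent.GTor.H2.heckeNormFn Kb N ℓ (σ f)
      = σ (Fermat.Agent.GTor.H2.heckeNormFn Kb N ℓ f) := by
  rw [Fermat.Agent.S59.LL.SQ.H33.heckeNormFn_def, Fermat.Agent.S59.LL.SQ.H33.heckeNormFn_def,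
    ← hβ]
  exact norm_comm_of_intertwine (heckeAlphaBar Kb N ℓ) σ σ' hα _

/-- The Hecke correspondence on divisors commutes with an automorphism which lifts. -/
theorem heckeDiv_comm_of_lift (σ : FN N ≃ₐ[Kb] FN N) (σ' : FN (N * ℓ) ≃ₐ[Kb] FN (N * ℓ))
    (hα : ∀ f, σ' (heckeAlphaBar Kb N ℓ f) = heckeAlphaBar Kb N ℓ (σ f))
    (hβ : ∀ f, σ' (heckeBetaBar Kb N ℓ f) = heckeBetaBar Kb N ℓ (σ f))
    (hαi : HeckeAlphaBarIntegral Kb N ℓ) (hβi : HeckeBetaBarIntegral Kb N ℓ)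
    [HasPrincipalDivisors Kb (laurentBaseChange Kb (modularFunctionFieldFull (N * ℓ)))]
    (D : Divisor Kb (FN N)) :
    heckeDivBar hαi hβi (SemilinearAut.ofAlgAut σ • D)
      = SemilinearAut.ofAlgAut σ • heckeDivBar hαi hβi D :=
  Fermat.Agent.GTor.H2.divisor_correspondence_smul (SemilinearAut.ofAlgAut σ)
    (SemilinearAut.ofAlgAut σ') (heckeBetaBar Kb N ℓ) (heckeAlphaBar Kb N ℓ) hβi hαi
    (fun x => hβ x) (fun x => hα x) D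

/-- The Hecke operator on `Pic⁰` commutes with an automorphism which lifts. -/
theorem heckePic0_comm_of_lift (σ : FN N ≃ₐ[Kb] FN N) (σ' : FN (N * ℓ) ≃ₐ[Kb] FN (N * ℓ))
    (hα : ∀ f, σ' (heckeAlphaBar Kb N ℓ f) = heckeAlphaBar Kb N ℓ (σ f))
    (hβ : ∀ f, σ' (heckeBetaBar Kb N ℓ f) = heckeBetaBar Kb N ℓ (σ f)) (x : JZero N) :
    heckeOperatorAlong Kb N ℓ (SemilinearAut.ofAlgAut σ • x)
      = SemilinearAut.ofAlgAut σ • heckeOperatorAlong Kb N ℓ x := by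
  by_cases h : HeckeInputsAlong Kb N ℓ
  · obtain ⟨hαi, hβi, hP, hfin, hFI, hN⟩ := h
    haveI := hP
    rw [heckeOperatorAlong_eq hαi hβi hFI hfin hN]
    exact Fermat.Agent.GTor.H2.pic0_correspondence_smul (SemilinearAut.ofAlgAut σ)
      (SemilinearAut.ofAlgAut σ') (heckeBetaBar Kb N ℓ) (heckeAlphaBar Kb N ℓ) hβi hαi
      hFI hfin hN (fun x => hβ x) (fun x => hα x) x
  · rw [heckeOperatorAlong_of_not h, AddMonoidHom.zero_apply, AddMonoidHom.zero_apply,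
      smul_zero]

end Comm

section Final

variable {M : ℕ} [NeZero M] (ℓ : ℕ) [NeZero ℓ]

/-- **hNc for `s₀`.** -/
theorem heckeNormFn_s0 (G : S3Gal M) (h2 : 2 ∣ M) (hℓ : ℓ.Prime) (hℓM : ¬ ℓ ∣ M * 2)
    (f : FN (M * 2)) :
    Fermat.Agent.GTor.H2.heckeNormFn Kb (M * 2) ℓ (G.s0 f)
      = G.s0 (Fermat.Agent.GTor.H2.heckeNormFn Kb (M * 2) ℓ f) := by
  obtain ⟨s0', s1', h0α, h0β, h1α, h1β⟩ := s3_lift ℓ G h2 hℓ hℓM
  exact heckeNormFn_comm_of_lift (M * 2) ℓ G.s0 s0' h0α h0β f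

/-- **hNc for `s₁`.** -/
theorem heckeNormFn_s1 (G : S3Gal M) (h2 : 2 ∣ M) (hℓ : ℓ.Prime) (hℓM : ¬ ℓ ∣ M * 2)
    (f : FN (M * 2)) :
    Fermat.Agent.GTor.H2.heckeNormFn Kb (M * 2) ℓ (G.s1 f)
      = G.s1 (Fermat.Agent.GTor.H2.heckeNormFn Kb (M * 2) ℓ f) := by
  obtain ⟨s0', s1', h0α, h0β, h1α, h1β⟩ := s3_lift ℓ G h2 hℓ hℓM
  exact heckeNormFn_comm_of_lift (M * 2) ℓ G.s1 s1' h1α h1β f

/-- **hNc for `c = s₀ s₁`** (as the product in the group `Aut (F_{2M} / Q̄)`). -/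
theorem heckeNormFn_c (G : S3Gal M) (h2 : 2 ∣ M) (hℓ : ℓ.Prime) (hℓM : ¬ ℓ ∣ M * 2)
    (f : FN (M * 2)) :
    Fermat.Agent.GTor.H2.heckeNormFn Kb (M * 2) ℓ ((G.s0 * G.s1) f)
      = (G.s0 * G.s1) (Fermat.Agent.GTor.H2.heckeNormFn Kb (M * 2) ℓ f) := by
  rw [AlgEquiv.mul_apply, AlgEquiv.mul_apply, heckeNormFn_s0 ℓ G h2 hℓ hℓM,
    heckeNormFn_s1 ℓ G h2 hℓ hℓM]

/-- **hNc for `c⁻¹ = s₁ s₀`.** -/
theorem heckeNormFn_c' (G : S3Gal M) (h2 : 2 ∣ M) (hℓ : ℓ.Prime) (hℓM : ¬ ℓ ∣ M * 2)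
    (f : FN (M * 2)) :
    Fermat.Agent.GTor.H2.heckeNormFn Kb (M * 2) ℓ ((G.s1 * G.s0) f)
      = (G.s1 * G.s0) (Fermat.Agent.GTor.H2.heckeNormFn Kb (M * 2) ℓ f) := by
  rw [AlgEquiv.mul_apply, AlgEquiv.mul_apply, heckeNormFn_s1 ℓ G h2 hℓ hℓM,
    heckeNormFn_s0 ℓ G h2 hℓ hℓM]

/-- `T_ℓ` on `J₀(2M)` commutes with `s₀`. -/
theorem heckeOperatorBar_s0 (G : S3Gal M) (h2 : 2 ∣ M) (ℓ : Nat.Primes)
    (hℓM : ¬ (ℓ : ℕ) ∣ M * 2) (x : JZero (M * 2)) :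
    heckeOperatorBar (M * 2) ℓ (SemilinearAut.ofAlgAut G.s0 • x)
      = SemilinearAut.ofAlgAut G.s0 • heckeOperatorBar (M * 2) ℓ x := by
  haveI : NeZero (ℓ : ℕ) := ⟨ℓ.2.ne_zero⟩
  obtain ⟨s0', s1', h0α, h0β, h1α, h1β⟩ := s3_lift (ℓ : ℕ) G h2 ℓ.2 hℓM
  exact heckePic0_comm_of_lift (M * 2) (ℓ : ℕ) G.s0 s0' h0α h0β x

/-- `T_ℓ` on `J₀(2M)` commutes with `s₁`. -/
theorem heckeOperatorBar_s1 (G : S3Gal M) (h2 : 2 ∣ M) (ℓ : Nat.Primes)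
    (hℓM : ¬ (ℓ : ℕ) ∣ M * 2) (x : JZero (M * 2)) :
    heckeOperatorBar (M * 2) ℓ (SemilinearAut.ofAlgAut G.s1 • x)
      = SemilinearAut.ofAlgAut G.s1 • heckeOperatorBar (M * 2) ℓ x := by
  haveI : NeZero (ℓ : ℕ) := ⟨ℓ.2.ne_zero⟩
  obtain ⟨s0', s1', h0α, h0β, h1α, h1β⟩ := s3_lift (ℓ : ℕ) G h2 ℓ.2 hℓM
  exact heckePic0_comm_of_lift (M * 2) (ℓ : ℕ) G.s1 s1' h1α h1β x

/-- `T_ℓ` on `J₀(2M)` commutes with `c = s₀ s₁`. -/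
theorem heckeOperatorBar_c (G : S3Gal M) (h2 : 2 ∣ M) (ℓ : Nat.Primes)
    (hℓM : ¬ (ℓ : ℕ) ∣ M * 2) (x : JZero (M * 2)) :
    heckeOperatorBar (M * 2) ℓ (SemilinearAut.ofAlgAut (G.s0 * G.s1) • x)
      = SemilinearAut.ofAlgAut (G.s0 * G.s1) • heckeOperatorBar (M * 2) ℓ x := by
  rw [map_mul, mul_smul, mul_smul, heckeOperatorBar_s0 G h2 ℓ hℓM,
    heckeOperatorBar_s1 G h2 ℓ hℓM]

end Final

end Fermat.Agent.S59.LL.SQ23.H6
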