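import Fermat.Agent.S59.LL.SQ23.H89_Pic
import Fermat.Agent.S36.NU.H87_NrB2

/-!
# S59 / LL / SQ23, leaves S3-DEG + S3-PIC (helper89): degrees of `α`, `β` at level `2M`, `2 ∥ M`

For `M = 2 M'`, `M'` odd: `[F_{2M} : α^* F_M] = 2 = [F_{2M} : β^* F_M]`
(helper87's `H87.finrank_FA`, `H87.finrank_FB` at `q = 2`), hence

* `s3Act_of_gal'` : `S3Gal M → S3Act M` without further hypothesis (with the same `rfl` lemmas);
* `stmt_S3Act_of_gal : Stmt_S3Gal → ∀ M, 2 ∣ M → ¬ 4 ∣ M → Nonempty (S3Act M)`.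
-/

set_option autoImplicit false
set_option linter.style.haveILetI false
set_option linter.unusedSectionVars false

noncomputable section

namespace Fermat.Agent.S59.LL.SQ23.H89

open AlgebraicCurve ModularCurve Fermat.Agent.S24 Fermat.Agent.S36.H44
  Fermat.Agent.S59.LL.SQ.H40 Fermat.Agent.Lib.HeckeComm

local notation "Kb" => AlgebraicClosure ℚ

section Deg

/-- `M = M' * 2` with `M'` odd. -/
theorem exists_odd_half (M : ℕ) (h2 : 2 ∣ M) (h4 : ¬ 4 ∣ M) :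
    ∃ M' : ℕ, M = M' * 2 ∧ ¬ 2 ∣ M' := by
  obtain ⟨M', hM'⟩ := h2
  refine ⟨M', by omega, fun h => h4 ?_⟩
  obtain ⟨c, hc⟩ := h
  exact ⟨c, by omega⟩

/-- **S3-DEG (α)**: `[F_{2M} : α^* F_M] = 2` for `2 ∥ M`. -/
theorem finrank_alpha_two (M : ℕ) [NeZero M] (h2 : 2 ∣ M) (h4 : ¬ 4 ∣ M) :
    finrankAlong Kb (heckeAlphaBar Kb M 2) = 2 := by
  obtain ⟨M', hM, hodd⟩ := exists_odd_half M h2 h4
  subst hM
  haveI : NeZero M' := ⟨fun h => (NeZero.ne (M' * 2)) (by rw [h, zero_mul])⟩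
  exact Fermat.Agent.S36.NU.H87.finrank_FA 2 M' Nat.prime_two

/-- **S3-DEG (β)**: `[F_{2M} : β^* F_M] = 2` for `2 ∥ M`. -/
theorem finrank_beta_two (M : ℕ) [NeZero M] (h2 : 2 ∣ M) (h4 : ¬ 4 ∣ M) :
    finrankAlong Kb (heckeBetaBar Kb M 2) = 2 := by
  obtain ⟨M', hM, hodd⟩ := exists_odd_half M h2 h4
  subst hM
  haveI : NeZero M' := ⟨fun h => (NeZero.ne (M' * 2)) (by rw [h, zero_mul])⟩
  exact Fermat.Agent.S36.NU.H87.finrank_FB 2 M' Nat.prime_two hodd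

variable (M : ℕ) [NeZero M] (h2 : 2 ∣ M) (h4 : ¬ 4 ∣ M) (G : S3Gal M)

/-- **S3-PIC**: the action of `S₃` on `J₀(2M)` from the two deck involutions, `2 ∥ M`. -/
def s3Act_of_gal' : S3Act M :=
  s3Act_of_gal M G (finrank_alpha_two M h2 h4) (finrank_beta_two M h2 h4)

@[simp]
theorem s3Act'_s0_apply (x : JZero (M * 2)) :
    (s3Act_of_gal' M h2 h4 G).s0 x = G.s0 • x := rfl

@[simp]
theorem s3Act'_s1_apply (x : JZero (M * 2)) :
    (s3Act_of_gal' M h2 h4 G).s1 x = G.s1 • x := rfl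

theorem s3Act'_c_apply (x : JZero (M * 2)) :
    (s3Act_of_gal' M h2 h4 G).c x = (G.s0 * G.s1) • x :=
  s3Act_c_apply M G _ _ x

end Deg

/-- **S3-PIC** at every level, from **S3-GAL**. -/
theorem stmt_S3Act_of_gal (hG : Stmt_S3Gal) (M : ℕ) [NeZero M] (h2 : 2 ∣ M) (h4 : ¬ 4 ∣ M) :
    Nonempty (S3Act M) := by
  obtain ⟨G⟩ := hG M h2 h4
  exact ⟨s3Act_of_gal' M h2 h4 G⟩

end Fermat.Agent.S59.LL.SQ23.H89
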