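import Mathlib
import Fermat.Agent.S59.LL.SQ23.H36_H90
import Fermat.Agent.S59.LL.SQ23.H89_PicDeg
import Fermat.Agent.S59.LL.SQ23.H6_S3Hecke
import Fermat.Agent.NEB.H14_JHRules
import Fermat.Agent.RED.ES.H95_NormAlpha

/-!
# S59 / LL / SQ23, leaf S3-H90, INSTANCE (helper63)

`D.HasH90` for the `S3Act` of S3-PIC (`H89.s3Act_of_gal'`), from the abstract `H36.h90_eigen`
and the function-level commutation of `c = s₀ s₁` with `T_ℓ` (leaf S3-HECKE, `Stmt_S3Hecke`).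

* `exists_fixed_transcendental` : an automorphism of order dividing `3` of a field `L / K`
  with a transcendental element fixes a transcendental element (a symmetric function);
* `isFF_adjoinSimple` : `K(e)` is a function field for `e` transcendental;
* `h90_eigen_noMu` : `H36.h90_eigen` without the auxiliary fixed function field;
* `c_ne_one` : `s₀ s₁ ≠ 1` for every `S3Gal` (`j(q)` is not a series in `q²`);
* `Stmt_S3Hecke` : the interface of S3-HECKE;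
* `hasH90_of`, `stmt_S3_of : Stmt_S3Gal → Stmt_S3Hecke → Stmt_S3`;
* `stmt_S3Hecke` (from helper6's `H6.heckeNormFn_c`), `hasH90`, `stmt_S3_of_gal : Stmt_S3Gal → Stmt_S3`.
-/

set_option autoImplicit false
set_option linter.unusedVariables false
set_option linter.style.haveILetI false
set_option linter.unusedSectionVars false

noncomputable section

namespace Fermat.Agent.S59.LL.SQ23.H63

open AlgebraicCurve Fermat.Agent.RED Fermat.Agent.NEB.H14 Fermat.Agent.NEB.H29 IntermediateField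
  Polynomial

section Abstract

variable {K L : Type} [Field K] [Field L] [Algebra K L]

/-- An automorphism `c` with `c³ = 1` of a field with a transcendental element fixes a
transcendental element. -/
theorem exists_fixed_transcendental (c : L ≃ₐ[K] L) (hc3 : c ^ 3 = 1) (y : L)
    (hy : Transcendental K y) : ∃ e : L, Transcendental K e ∧ c e = e := by
  by_contra hcon
  push Not at hcon
  have hcc : ∀ z, c (c (c z)) = z := fun z => by
    have h := DFunLike.congr_fun hc3 z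
    simpa [pow_succ, AlgEquiv.mul_apply] using h
  have hint : ∀ e : L, c e = e → IsIntegral K e := by
    intro e he
    by_contra h
    exact hcon e (fun halg => h halg.isIntegral) he
  have a1 : IsIntegral K (y + c y + c (c y)) := hint _ (by
    rw [map_add, map_add, hcc]; ring)
  have a2 : IsIntegral K (y * c y + c y * c (c y) + c (c y) * y) := hint _ (by
    rw [map_add, map_add, map_mul, map_mul, map_mul, hcc]; ring)
  have a3 : IsIntegral K (y * c y * c (c y)) := hint _ (by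
    rw [map_mul, map_mul, hcc]; ring)
  let A := integralClosure K L
  let e1 : A := ⟨_, a1⟩
  let e2 : A := ⟨_, a2⟩
  let e3 : A := ⟨_, a3⟩
  have hyA : IsIntegral A y := by
    have hdeg : (C e1 * X ^ 2 - C e2 * X + C e3 : Polynomial A).degree ≤ 2 := by
      compute_degree
    refine ⟨X ^ 3 - (C e1 * X ^ 2 - C e2 * X + C e3), Polynomial.monic_X_pow_sub ?_, ?_⟩
    · exact lt_of_le_of_lt hdeg (by exact_mod_cast (by norm_num : (2 : ℕ) < 3))
    · simp only [eval₂_sub, eval₂_add, eval₂_mul, eval₂_pow, eval₂_X, eval₂_C]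
      show y ^ 3 - ((y + c y + c (c y)) * y ^ 2
        - (y * c y + c y * c (c y) + c (c y) * y) * y + y * c y * c (c y)) = 0
      ring
  have hyK : IsIntegral K y := isIntegral_trans (R := K) (A := A) y hyA
  exact hy hyK.isAlgebraic

/-- `K(e)` is a function field for transcendental `e`. -/
theorem isFF_adjoinSimple (e : L) (he : Transcendental K e) : IsFF K ↥K⟮e⟯ := by
  set g : ↥K⟮e⟯ := AdjoinSimple.gen K e with hg
  have hge : algebraMap ↥K⟮e⟯ L g = e := rfl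
  have hgtr : Transcendental K g :=
    (transcendental_algebraMap_iff (algebraMap ↥K⟮e⟯ L).injective).mp (by rw [hge]; exact he)
  have hgtop : K⟮g⟯ = (⊤ : IntermediateField K ↥K⟮e⟯) := by
    have h1 : (K⟮AdjoinSimple.gen K e⟯ : IntermediateField K ↥K⟮e⟯).map (K⟮e⟯.val) =
        (⊤ : IntermediateField K ↥K⟮e⟯).map (K⟮e⟯.val) := by
      rw [IntermediateField.adjoin_map, Set.image_singleton]
      rw [← AlgHom.fieldRange_eq_map, IntermediateField.fieldRange_val]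
      rfl
    exact IntermediateField.map_injective _ h1
  refine ⟨g, hgtr, ?_⟩
  rw [hgtop]
  exact Module.finite_of_finrank_pos (by rw [IntermediateField.finrank_top]; exact one_pos)

variable [IsAlgClosed K]

/-- **S3-H90, abstract form, without the auxiliary field.** -/
theorem h90_eigen_noMu (hL : IsFF K L) (c : L ≃ₐ[K] L) (hc3 : c ^ 3 = 1) (hc1 : c ≠ 1)
    {Φ : Divisor K L →+ Divisor K L} {N : L → L} {d : ℤ} (hΦ : IsCorr Φ N d)
    (hNmul : ∀ f g, N (f * g) = N f * N g) (hNc : ∀ f, N (c f) = c (N f))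
    (n : ℕ) (hNK : ∀ ζ : K, ζ ^ 3 = 1 → N (algebraMap K L ζ) = algebraMap K L (ζ ^ n))
    (hd : d = n)
    (x : Pic0 K L) (h3 : (3 : ℤ) • x = 0) (hcx : c • x = x) (t : ℤ)
    (ht : picMap Φ x = t • x) (hEis : ¬ (3 : ℤ) ∣ t - d) :
    ∃ u : Pic0 K L, c • u - u = x := by
  obtain ⟨y, hy, hfin⟩ := hL
  obtain ⟨e, he, hce⟩ := exists_fixed_transcendental c hc3 y hy
  have hF₀ : IsFF K ↥K⟮e⟯ := isFF_adjoinSimple e he
  have hμ : ∀ a : ↥K⟮e⟯, c (K⟮e⟯.val a) = K⟮e⟯.val a := by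
    intro a
    have hle : K⟮e⟯ ≤ Fermat.Agent.S59.LL.SQ23.H36.fixE c := by
      rw [adjoin_simple_le_iff]
      exact (Fermat.Agent.S59.LL.SQ23.H36.mem_fixE_iff c e).2 hce
    exact (Fermat.Agent.S59.LL.SQ23.H36.mem_fixE_iff c _).1 (hle a.2)
  exact Fermat.Agent.S59.LL.SQ23.H36.h90_eigen ⟨y, hy, hfin⟩ hF₀ K⟮e⟯.val c hμ hc3 hc1
    hΦ hNmul hNc n hNK hd x h3 hcx t ht hEis

end Abstract

section Modular

open ModularCurve Fermat.Agent.S24 Fermat.Agent.S36.H44 Fermat.Agent.S59.LL.SQ.H40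
  Fermat.Agent.NEB.JH

local notation "Kb" => AlgebraicClosure ℚ

/-- `j` has a pole of order one: the coefficient of `q⁻¹` is `1`. -/
theorem jBar_coeff_neg_one' : (jBar : LaurentSeries Kb).coeff (-1 : ℤ) = 1 := by
  rw [jBar, coeffEmb_coeff, coeff_jq_neg_one, map_one]

/-- The two deck involutions are different: `j(q)` is not a series in `q²`. -/
theorem s0_ne_s1 (M : ℕ) [NeZero M] (G : S3Gal M) : G.s0 ≠ G.s1 := by
  intro h
  obtain ⟨g, hg⟩ := G.s0_fixed (heckeAlphaBar Kb M 2 (jF M)) (by rw [h]; exact G.s1_alpha _)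
  have h1 := congrArg (fun z : FN (M * 2) => (z : LaurentSeries Kb).coeff (-1 : ℤ)) hg
  simp only [coe_heckeAlphaBar, coe_heckeBetaBar] at h1
  have h0 : (ModularCurve.qExpand Kb 2 (g : LaurentSeries Kb)).coeff (-1 : ℤ) = 0 :=
    ModularCurve.qExpand_coeff_of_not_dvd (R := Kb) (N := 2) (g : LaurentSeries Kb)
      (k := -1) (by norm_num)
  have h2 : ((jF M : FN M) : LaurentSeries Kb).coeff (-1 : ℤ) = 1 := jBar_coeff_neg_one'
  rw [h2, h0] at h1
  exact zero_ne_one h1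

/-- `c = s₀ s₁` has order exactly `3`: `c ≠ 1`. -/
theorem c_ne_one (M : ℕ) [NeZero M] (G : S3Gal M) : G.s0 * G.s1 ≠ 1 := by
  intro h
  apply s0_ne_s1 M G
  refine AlgEquiv.ext fun f => ?_
  have h1 := DFunLike.congr_fun h (G.s1 f)
  rw [AlgEquiv.mul_apply, G.s1_s1, AlgEquiv.one_apply] at h1
  exact h1

theorem c_pow_three (M : ℕ) [NeZero M] (G : S3Gal M) : (G.s0 * G.s1) ^ 3 = 1 := by
  refine AlgEquiv.ext fun f => ?_
  have h : ((G.s0 * G.s1) ^ 3) f = G.s0 (G.s1 (G.s0 (G.s1 (G.s0 (G.s1 f))))) := by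
    rw [pow_succ, pow_succ, pow_one]
    rfl
  rw [h, G.c3 f, AlgEquiv.one_apply]

/-- The function-level Hecke map `f ↦ Norm_α (β f)` of `T_ℓ = α_* β^*` at level `N`. -/
def heckeFn (N ℓ : ℕ) [NeZero N] [NeZero ℓ] (f : FN N) : FN N :=
  normFn (heckeAlphaBar Kb N ℓ) (heckeBetaBar Kb N ℓ f)

/-- **S3-HECKE**: `c = s₀ s₁` commutes with the function-level Hecke map `Norm_α ∘ β^*`
of `T_ℓ`, `ℓ ∤ 2M`. -/
def Stmt_S3Hecke : Prop :=
  ∀ (M : ℕ) [NeZero M], 2 ∣ M → ¬ 4 ∣ M → ∀ (G : S3Gal M) (ℓ : ℕ) [NeZero ℓ], ℓ.Prime →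
    ¬ ℓ ∣ M * 2 → ∀ f : FN (M * 2),
      heckeFn (M * 2) ℓ ((G.s0 * G.s1) f) = (G.s0 * G.s1) (heckeFn (M * 2) ℓ f)

/-- `T_ℓ` on divisors. -/
def heckeDiv (N ℓ : ℕ) [NeZero N] [NeZero ℓ] : Divisor Kb (FN N) →+ Divisor Kb (FN N) :=
  (pushD (heckeAlphaBar Kb N ℓ)).comp (pullD (heckeBetaBar Kb N ℓ))

theorem isCorr_heckeDiv (N ℓ : ℕ) [NeZero N] [NeZero ℓ] :
    IsCorr (heckeDiv N ℓ) (heckeFn N ℓ) (1 * finrankAlong Kb (heckeBetaBar Kb N ℓ)) :=
  haveI := neZero_mul N ℓ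
  (isCorr_pushD (isFF0 N) (isFF0 (N * ℓ)) (heckeAlphaBar Kb N ℓ)).comp
    (isCorr_pullD (isFF0 N) (isFF0 (N * ℓ)) (heckeBetaBar Kb N ℓ))

theorem heckeOperatorBar_eq_picMap (N : ℕ) [NeZero N] (ℓ : Nat.Primes) (x : JZero N) :
    heckeOperatorBar N ℓ x
      = (haveI : NeZero (ℓ : ℕ) := ⟨ℓ.2.ne_zero⟩; picMap (heckeDiv N ℓ) x) := by
  haveI : NeZero (ℓ : ℕ) := ⟨ℓ.2.ne_zero⟩
  haveI := neZero_mul N ℓ
  rw [heckeOperatorBar_apply, T0_eq]
  exact (DFunLike.congr_fun (picMap_comp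
    (isCorr_pushD (isFF0 N) (isFF0 (N * ℓ)) (heckeAlphaBar Kb N ℓ)).isGood
    (isCorr_pullD (isFF0 N) (isFF0 (N * ℓ)) (heckeBetaBar Kb N ℓ)).isGood) x).symm

theorem heckeFn_mul (N ℓ : ℕ) [NeZero N] [NeZero ℓ] (f g : FN N) :
    heckeFn N ℓ (f * g) = heckeFn N ℓ f * heckeFn N ℓ g := by
  letI := algebraAlong (heckeAlphaBar Kb N ℓ)
  show Algebra.norm (FN N) (heckeBetaBar Kb N ℓ (f * g))
    = Algebra.norm (FN N) (heckeBetaBar Kb N ℓ f) * Algebra.norm (FN N) (heckeBetaBar Kb N ℓ g)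
  rw [map_mul, map_mul]

theorem heckeFn_const (N ℓ : ℕ) [NeZero N] [NeZero ℓ] (hℓ : ℓ.Prime) (hN : ¬ ℓ ∣ N) (a : Kb) :
    heckeFn N ℓ (algebraMap Kb (FN N) a) = algebraMap Kb (FN N) (a ^ (ℓ + 1)) := by
  rw [heckeFn, AlgHom.commutes, ← AlgHom.commutes (heckeAlphaBar Kb N ℓ), normFn_apply_self,
    Fermat.Agent.RED.H95.finrankAlong_alpha hℓ hN, map_pow]

/-- **S3-H90, instance**: Hilbert 90 on `J₀(2M)` for `c = s₀ s₁`, from S3-HECKE. -/
theorem hasH90_of (hH : Stmt_S3Hecke) (M : ℕ) [NeZero M] (h2 : 2 ∣ M) (h4 : ¬ 4 ∣ M)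
    (G : S3Gal M) : (Fermat.Agent.S59.LL.SQ23.H89.s3Act_of_gal' M h2 h4 G).HasH90 := by
  rintro S t x h3 hcx heig ⟨ℓ, hℓ, hℓS, hℓM, hℓ3, hne⟩
  haveI : NeZero ℓ := ⟨hℓ.ne_zero⟩
  rw [Fermat.Agent.S59.LL.SQ23.H89.s3Act'_c_apply] at hcx
  have ht : picMap (heckeDiv (M * 2) ℓ) x = t ℓ • x := by
    have h := heig ⟨ℓ, hℓ⟩ hℓS hℓM hℓ3
    rw [heckeOperatorBar_eq_picMap] at h
    exact h
  have hd : (1 * finrankAlong Kb (heckeBetaBar Kb (M * 2) ℓ) : ℤ) = ((ℓ + 1 : ℕ) : ℤ) := by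
    rw [Fermat.Agent.RED.H95.finrankAlong_beta hℓ hℓM, one_mul]
  have hEis : ¬ (3 : ℤ) ∣ t ℓ - (1 * finrankAlong Kb (heckeBetaBar Kb (M * 2) ℓ) : ℤ) := by
    rw [hd]
    intro hdvd
    apply hne
    have h0 := (ZMod.intCast_zmod_eq_zero_iff_dvd (t ℓ - ((ℓ + 1 : ℕ) : ℤ)) 3).2 hdvd
    push_cast at h0
    rw [sub_eq_zero] at h0
    rw [h0]; ring
  obtain ⟨u, hu⟩ := h90_eigen_noMu (isFF0 (M * 2)) (G.s0 * G.s1) (c_pow_three M G)
    (c_ne_one M G) (isCorr_heckeDiv (M * 2) ℓ) (heckeFn_mul (M * 2) ℓ)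
    (hH M h2 h4 G ℓ hℓ hℓM) (ℓ + 1) (fun ζ _ => heckeFn_const (M * 2) ℓ hℓ hℓM ζ) hd
    x h3 hcx (t ℓ) ht hEis
  exact ⟨u, by rw [Fermat.Agent.S59.LL.SQ23.H89.s3Act'_c_apply]; exact hu⟩

/-- **SQ23, geometric content**, from S3-GAL and S3-HECKE. -/
theorem stmt_S3_of (hG : Stmt_S3Gal) (hH : Stmt_S3Hecke) : Stmt_S3 := by
  intro M _ h2 h4
  obtain ⟨G⟩ := hG M h2 h4
  exact ⟨Fermat.Agent.S59.LL.SQ23.H89.s3Act_of_gal' M h2 h4 G, hasH90_of hH M h2 h4 G⟩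

/-- **S3-HECKE** holds (helper6, `H6.heckeNormFn_c`). -/
theorem stmt_S3Hecke : Stmt_S3Hecke := by
  intro M _ h2 h4 G ℓ _ hℓ hℓM f
  exact Fermat.Agent.S59.LL.SQ23.H6.heckeNormFn_c ℓ G h2 hℓ hℓM f

/-- **S3-H90 + S3-HECKE**: Hilbert 90 on `J₀(2M)` for `c = s₀ s₁`, for the `S3Act` of S3-PIC. -/
theorem hasH90 (M : ℕ) [NeZero M] (h2 : 2 ∣ M) (h4 : ¬ 4 ∣ M) (G : S3Gal M) :
    (Fermat.Agent.S59.LL.SQ23.H89.s3Act_of_gal' M h2 h4 G).HasH90 :=
  hasH90_of stmt_S3Hecke M h2 h4 G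

/-- **SQ23, geometric content**, from S3-GAL alone. -/
theorem stmt_S3_of_gal (hG : Stmt_S3Gal) : Stmt_S3 :=
  stmt_S3_of hG stmt_S3Hecke

end Modular

end Fermat.Agent.S59.LL.SQ23.H63
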