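import Fermat.Agent.S59.LL.SQ23.H6_S3Hecke
import Fermat.Agent.NEB.H14_CorrFF

/-!
# S59 / LL / SQ23, leaf S3-HECKE (helper6): the statement in the shape of helper63's interface

`heckeFn N ℓ f = NEB.H14.normFn (heckeAlphaBar Kb N ℓ) (heckeBetaBar Kb N ℓ f)` (helper63,
`H63_Inst.lean`); `stmt_S3Hecke_unfolded` is `H63.Stmt_S3Hecke` with `heckeFn` unfolded.
-/

set_option autoImplicit false
set_option linter.unusedSectionVars false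
set_option linter.unusedVariables false
set_option linter.style.haveILetI false

noncomputable section

namespace Fermat.Agent.S59.LL.SQ23.H6

open AlgebraicCurve ModularCurve Fermat.Agent.S24 Fermat.Agent.S36.H44

local notation "Kb" => AlgebraicClosure ℚ

/-- **S3-HECKE** (`c = s₀ s₁` commutes with the Kummer function of `T_ℓ`). -/
theorem stmt_S3Hecke_unfolded :
    ∀ (M : ℕ) [NeZero M], 2 ∣ M → ¬ 4 ∣ M → ∀ (G : S3Gal M) (ℓ : ℕ) [NeZero ℓ], ℓ.Prime →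
      ¬ ℓ ∣ M * 2 → ∀ f : FN (M * 2),
        Fermat.Agent.NEB.H14.normFn (heckeAlphaBar Kb (M * 2) ℓ)
            (heckeBetaBar Kb (M * 2) ℓ ((G.s0 * G.s1) f))
          = (G.s0 * G.s1) (Fermat.Agent.NEB.H14.normFn (heckeAlphaBar Kb (M * 2) ℓ)
              (heckeBetaBar Kb (M * 2) ℓ f)) :=
  fun M _ h2 _ G ℓ _ hℓ hℓM f => heckeNormFn_c ℓ G h2 hℓ hℓM f

/-- The same for `s₀`. -/
theorem stmt_S3Hecke_s0 :
    ∀ (M : ℕ) [NeZero M], 2 ∣ M → ∀ (G : S3Gal M) (ℓ : ℕ) [NeZero ℓ], ℓ.Prime →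
      ¬ ℓ ∣ M * 2 → ∀ f : FN (M * 2),
        Fermat.Agent.NEB.H14.normFn (heckeAlphaBar Kb (M * 2) ℓ)
            (heckeBetaBar Kb (M * 2) ℓ (G.s0 f))
          = G.s0 (Fermat.Agent.NEB.H14.normFn (heckeAlphaBar Kb (M * 2) ℓ)
              (heckeBetaBar Kb (M * 2) ℓ f)) :=
  fun M _ h2 G ℓ _ hℓ hℓM f => heckeNormFn_s0 ℓ G h2 hℓ hℓM f

/-- The same for `s₁`. -/
theorem stmt_S3Hecke_s1 :
    ∀ (M : ℕ) [NeZero M], 2 ∣ M → ∀ (G : S3Gal M) (ℓ : ℕ) [NeZero ℓ], ℓ.Prime →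
      ¬ ℓ ∣ M * 2 → ∀ f : FN (M * 2),
        Fermat.Agent.NEB.H14.normFn (heckeAlphaBar Kb (M * 2) ℓ)
            (heckeBetaBar Kb (M * 2) ℓ (G.s1 f))
          = G.s1 (Fermat.Agent.NEB.H14.normFn (heckeAlphaBar Kb (M * 2) ℓ)
              (heckeBetaBar Kb (M * 2) ℓ f)) :=
  fun M _ h2 G ℓ _ hℓ hℓM f => heckeNormFn_s1 ℓ G h2 hℓ hℓM f

end Fermat.Agent.S59.LL.SQ23.H6
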