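import Fermat.Agent.S59.LL.SQ.H40_Pull

/-!
# S59 / LL / SQ23, leaf S3-PIC (helper89): `φ^* φ_* = 1 + s` for a quadratic Galois extension

`φ : F →ₐ[K] F'` a finite morphism of function fields, `s : F' ≃ₐ[K] F'` an automorphism.

* `smulDiv s` : the action of `s` on divisors, as an additive map; `finPre_smulDiv`;
* `pull_push_div` : if `φ (N_φ f) = f * s f` for all `f`, then `φ^* φ_* = 1 + s` on divisors
  (helper2's principle: additive maps with finite preimage supports which agree on principal
  divisors are equal);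
* `norm_eq_mul_of_finrank_two` : if `[F' : φ F] = 2`, `s ∘ φ = φ` and `s ≠ 1`, then
  `φ (N_φ f) = f * s f`;
* `pic0_pull_push` : `φ^* φ_* x = x + s • x` on `Pic⁰`;
* `pic0_pull_push_of_finrank_two` : the same for a quadratic extension with its involution.

The modular instances (`α`, `β : F_{2M'} → F_{4M'}`) are in `H89_S3PicMod.lean`.
-/

set_option autoImplicit false
set_option linter.style.haveILetI false
set_option linter.unusedSectionVars false

noncomputable section

namespace Fermat.Agent.S59.LL.SQ23.H89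

open AlgebraicCurve Fermat.Agent.Lib.HeckeComm Fermat.Agent.S36.H44 Fermat.Agent.S59.LL.SQ.H40

section Abstract

variable {K F F' : Type*} [Field K] [Field F] [Field F'] [Algebra K F] [Algebra K F']

/-- The action of an automorphism on divisors, as an additive map. -/
def smulDiv (s : F' ≃ₐ[K] F') : Divisor K F' →+ Divisor K F' :=
  DistribSMul.toAddMonoidHom (Divisor K F') s

@[simp]
theorem smulDiv_apply (s : F' ≃ₐ[K] F') (D : Divisor K F') : smulDiv s D = s • D := rfl

theorem finPre_smulDiv (s : F' ≃ₐ[K] F') : FinPre (smulDiv s) := by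
  intro w
  refine (Set.finite_singleton (s⁻¹ • w)).subset fun v hv => ?_
  rw [Set.mem_ofPred_eq, smulDiv_apply, Divisor.smul_single] at hv
  rw [Set.mem_singleton_iff]
  by_contra hne
  apply hv
  refine Finsupp.single_eq_of_ne fun h => hne ?_
  rw [h, inv_smul_smul]

theorem finPre_id : FinPre (AddMonoidHom.id (Divisor K F')) := by
  intro w
  refine (Set.finite_singleton w).subset fun v hv => ?_
  rw [Set.mem_ofPred_eq, AddMonoidHom.id_apply] at hv
  rw [Set.mem_singleton_iff]
  by_contra hne
  exact hv (Finsupp.single_eq_of_ne fun h => hne h.symm)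

theorem finPre_add {Φ Ψ : Divisor K F →+ Divisor K F'} (hΦ : FinPre Φ) (hΨ : FinPre Ψ) :
    FinPre (Φ + Ψ) := by
  intro w
  refine ((hΦ w).union (hΨ w)).subset fun v hv => ?_
  rw [Set.mem_ofPred_eq, AddMonoidHom.add_apply, Finsupp.add_apply] at hv
  by_contra hne
  rw [Set.mem_union, not_or] at hne
  apply hv
  have h1 : Φ (Finsupp.single v 1) w = 0 := by
    by_contra h; exact hne.1 h
  have h2 : Ψ (Finsupp.single v 1) w = 0 := by
    by_contra h; exact hne.2 h
  rw [h1, h2, add_zero]

/-- `s • div f = div (s f)`. -/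
theorem smul_div_apply (s : F' ≃ₐ[K] F') (f : F') (D : Divisor K F')
    (hD : ∀ w : Place K F', D w = w.ord f) (w : Place K F') :
    (s • D) w = w.ord (s f) := by
  rw [Divisor.smul_apply, hD]
  have h := Place.ord_smul s (s⁻¹ • w) f
  rw [smul_inv_smul] at h
  exact h.symm

variable [HasPrincipalDivisors K F']

/-- **`φ^* φ_* = 1 + s` on divisors**, if the norm of `φ` is `f ↦ f * s f`. -/
theorem pull_push_div (φ : F →ₐ[K] F') (hφ : φ.toRingHom.IsIntegral)
    (hfin : FiniteAlong K φ) (hN : NormFormulaAlong K φ hfin) (s : F' ≃ₐ[K] F')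
    (hs : ∀ f : F', φ (normAlongHom φ.toRingHom f) = f * s f) :
    (Divisor.pullbackAlong φ hφ).comp (Divisor.pushforwardAlong φ hφ)
      = AddMonoidHom.id (Divisor K F') + smulDiv s := by
  refine eq_of_eq_on_principal _ _
    (FinPre.comp (finPre_pullbackAlong φ hφ) (finPre_pushforwardAlong φ hφ))
    (finPre_add finPre_id (finPre_smulDiv s)) ?_
  intro f D hf hD
  apply Finsupp.ext
  intro w
  have hsf : s f ≠ 0 := fun h => hf (by simpa using h)
  rw [AddMonoidHom.comp_apply,
    pullbackAlong_ord φ hφ (f := normAlongHom φ.toRingHom f) _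
      (fun v => pushforwardAlong_ord φ hφ hfin hN hf D hD v) w,
    hs f, Place.ord_mul w hf hsf, AddMonoidHom.add_apply, Finsupp.add_apply,
    AddMonoidHom.id_apply, smulDiv_apply, hD w, smul_div_apply s f D hD w]

/-- **`φ^* φ_* x = x + s • x` on `Pic⁰`**, if the norm of `φ` is `f ↦ f * s f`. -/
theorem pic0_pull_push (φ : F →ₐ[K] F') (hφ : φ.toRingHom.IsIntegral)
    (hFI : FundamentalIdentityAlong K φ hφ)
    (hfin : FiniteAlong K φ) (hN : NormFormulaAlong K φ hfin) (s : F' ≃ₐ[K] F')
    (hs : ∀ f : F', φ (normAlongHom φ.toRingHom f) = f * s f) (x : Pic0 K F') :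
    pic0Pull φ hφ hFI (pic0Push φ hφ hfin hN x) = x + s • x := by
  obtain ⟨D, rfl⟩ := Pic0.mk_surjective x
  rw [pic0Push_mk, pic0Pull_mk, Pic0.smul_mk, ← Pic0.mk_add]
  refine congrArg Pic0.mk (Subtype.ext ?_)
  rw [coe_degZeroPull, coe_degZeroPush, AddSubgroup.coe_add, Pic0.coe_degZeroSMulHom]
  exact DFunLike.congr_fun (pull_push_div φ hφ hfin hN s hs) (D : Divisor K F')

end Abstract

section Quadratic

variable {K F F' : Type*} [Field K] [Field F] [Field F'] [Algebra K F] [Algebra K F']

/-- **The norm of a quadratic extension with a non-trivial automorphism.** -/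
theorem norm_eq_mul_of_finrank_two (φ : F →ₐ[K] F') (h2 : finrankAlong K φ = 2)
    (s : F' ≃ₐ[K] F') (hsφ : ∀ a : F, s (φ a) = φ a) (hs1 : s ≠ 1) (f : F') :
    φ (normAlongHom φ.toRingHom f) = f * s f := by
  classical
  letI := algebraAlong φ
  have hfr : Module.finrank F F' = 2 := h2
  haveI : FiniteDimensional F F' := Module.finite_of_finrank_pos (by rw [hfr]; norm_num)
  -- `s` as an automorphism over `F`
  let s' : F' ≃ₐ[F] F' := AlgEquiv.ofRingEquiv (f := s.toRingEquiv) (fun a => hsφ a)
  have hs' : ∀ x : F', s' x = s x := fun _ => rfl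
  have hne : s' ≠ 1 := by
    intro h
    apply hs1
    ext x
    have := congrArg (fun t : F' ≃ₐ[F] F' => t x) h
    simpa [hs'] using this
  -- the automorphism group has two elements
  have hle : Nat.card (F' ≃ₐ[F] F') ≤ 2 := by
    rw [← hfr]
    rw [Nat.card_eq_fintype_card]
    exact AlgEquiv.card_le
  have hge : 2 ≤ Nat.card (F' ≃ₐ[F] F') := by
    rw [Nat.card_eq_fintype_card]
    exact Fintype.one_lt_card_iff.mpr ⟨s', 1, hne⟩
  have hcard : Nat.card (F' ≃ₐ[F] F') = Module.finrank F F' := by
    rw [hfr]; exact le_antisymm hle hge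
  haveI : IsGalois F F' := IsGalois.of_card_aut_eq_finrank F F' hcard
  have huniv : (Finset.univ : Finset (F' ≃ₐ[F] F')) = {1, s'} := by
    symm
    apply Finset.eq_univ_of_card
    rw [Finset.card_pair (Ne.symm hne), ← Nat.card_eq_fintype_card]
    exact (le_antisymm hle hge).symm
  have hprod := Algebra.norm_eq_prod_automorphisms F f
  rw [huniv, Finset.prod_pair (Ne.symm hne)] at hprod
  exact hprod

variable [HasPrincipalDivisors K F']

/-- **`φ^* φ_* x = x + s • x` on `Pic⁰`** for a quadratic extension `F' / φ F` with its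
involution `s`. -/
theorem pic0_pull_push_of_finrank_two (φ : F →ₐ[K] F') (hφ : φ.toRingHom.IsIntegral)
    (hFI : FundamentalIdentityAlong K φ hφ)
    (hfin : FiniteAlong K φ) (hN : NormFormulaAlong K φ hfin) (h2 : finrankAlong K φ = 2)
    (s : F' ≃ₐ[K] F') (hsφ : ∀ a : F, s (φ a) = φ a) (hs1 : s ≠ 1) (x : Pic0 K F') :
    pic0Pull φ hφ hFI (pic0Push φ hφ hfin hN x) = x + s • x :=
  pic0_pull_push φ hφ hFI hfin hN s (norm_eq_mul_of_finrank_two φ h2 s hsφ hs1) x

end Quadratic

end Fermat.Agent.S59.LL.SQ23.H89
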