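import Fermat.Agent.S59.LL.SQ23.Defs
import Fermat.Agent.S59.LL.SQ23.H89_S3Pic

/-!
# S59 / LL / SQ23, leaf S3-PIC (helper89): the action of `S₃` on `J₀(2M)`

From the two deck involutions `G : S3Gal M` of `F_{2M}` (leaf S3-GAL) and the degrees
`[F_{2M} : α^* F_M] = 2 = [F_{2M} : β^* F_M]` (leaf S3-DEG) we build `s3Act_of_gal : S3Act M`:

* `s0`, `s1` act on `J₀(2M) = Pic⁰(F_{2M})` through the action of `F ≃ₐ[K] F` on `Pic⁰`
  (`actJ`; `D.s0 x = G.s0 • x` by `rfl`: `s3Act_s0_apply`, `s3Act_s1_apply`);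
* `β^* β_* x = x + s0 • x`, `α^* α_* x = x + s1 • x` (norm of a quadratic Galois extension,
  `H89.pic0_pull_push_of_finrank_two`);
* `(s0 s1)³ = 1` from `G.c3`.
-/

set_option autoImplicit false
set_option linter.style.haveILetI false
set_option linter.unusedSectionVars false

noncomputable section

namespace Fermat.Agent.S59.LL.SQ23.H89

open AlgebraicCurve ModularCurve Fermat.Agent.S24 Fermat.Agent.S36.H44
  Fermat.Agent.S59.LL.SQ.H40 Fermat.Agent.Lib.HeckeComm

local notation "Kb" => AlgebraicClosure ℚ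

section Act

variable (M : ℕ) [NeZero M]

/-- The action of an automorphism of `F_{2M}` on `J₀(2M)`. -/
def actJ (s : FN (M * 2) ≃ₐ[Kb] FN (M * 2)) : JZero (M * 2) →+ JZero (M * 2) :=
  DistribSMul.toAddMonoidHom (JZero (M * 2)) s

@[simp]
theorem actJ_apply (s : FN (M * 2) ≃ₐ[Kb] FN (M * 2)) (x : JZero (M * 2)) :
    actJ M s x = s • x := rfl

theorem actJ_mk (s : FN (M * 2) ≃ₐ[Kb] FN (M * 2))
    (D : Divisor.degZero (K := Kb) (F := FN (M * 2))) :
    actJ M s (Pic0.mk D) = Pic0.mk (Pic0.degZeroSMulHom s D) := rfl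

theorem actJ_actJ (s t : FN (M * 2) ≃ₐ[Kb] FN (M * 2)) (x : JZero (M * 2)) :
    actJ M s (actJ M t x) = actJ M (s * t) x := by
  rw [actJ_apply, actJ_apply, actJ_apply, mul_smul]

theorem actJ_one (x : JZero (M * 2)) : actJ M 1 x = x := by
  rw [actJ_apply, one_smul]

/-- An automorphism which is not the identity on functions of a field of degree `> 1`... here:
the deck involution of a quadratic extension is not the identity. -/
theorem ne_one_of_fixed {F F' : Type*} [Field F] [Field F'] [Algebra Kb F] [Algebra Kb F']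
    (φ : F →ₐ[Kb] F') (h2 : finrankAlong Kb φ = 2) (s : F' ≃ₐ[Kb] F')
    (hfix : ∀ f, s f = f → ∃ g : F, φ g = f) : s ≠ 1 := by
  rintro rfl
  letI := algebraAlong φ
  have hsurj : Function.Surjective (algebraMap F F') := fun f => hfix f rfl
  have h1 : Module.finrank F F' = 1 := by
    have hbt : (⊥ : Subalgebra F F') = ⊤ := (Algebra.surjective_algebraMap_iff.mp hsurj).symm
    exact Subalgebra.bot_eq_top_iff_finrank_eq_one.mp hbt
  have h2' : Module.finrank F F' = 2 := h2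
  omega

variable (G : S3Gal M) (hα2 : finrankAlong Kb (heckeAlphaBar Kb M 2) = 2)
  (hβ2 : finrankAlong Kb (heckeBetaBar Kb M 2) = 2)

/-- **S3-PIC**: the action of `S₃` on `J₀(2M)` from the two deck involutions. -/
def s3Act_of_gal : S3Act M where
  s0 := actJ M G.s0
  s1 := actJ M G.s1
  s0_s0 := fun x => by
    rw [actJ_actJ, show G.s0 * G.s0 = 1 from AlgEquiv.ext G.s0_s0, actJ_one]
  s1_s1 := fun x => by
    rw [actJ_actJ, show G.s1 * G.s1 = 1 from AlgEquiv.ext G.s1_s1, actJ_one]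
  c3 := fun x => by
    rw [actJ_actJ, actJ_actJ, actJ_actJ, actJ_actJ, actJ_actJ,
      show G.s0 * G.s1 * G.s0 * G.s1 * G.s0 * G.s1 = 1 from AlgEquiv.ext G.c3,
      actJ_one]
  beta := fun x => by
    haveI := hasPD_FN (M * 2)
    exact pic0_pull_push_of_finrank_two (heckeBetaBar Kb M 2) (beta_integral M 2)
      (beta_FI M 2) (beta_finite M 2) (beta_norm M 2) hβ2 G.s0 G.s0_beta
      (ne_one_of_fixed (heckeBetaBar Kb M 2) hβ2 G.s0 G.s0_fixed) x
  alpha := fun x => by
    haveI := hasPD_FN (M * 2)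
    exact pic0_pull_push_of_finrank_two (heckeAlphaBar Kb M 2) (alpha_integral M 2)
      (alpha_FI M 2) (alpha_finite M 2) (alpha_norm M 2) hα2 G.s1 G.s1_alpha
      (ne_one_of_fixed (heckeAlphaBar Kb M 2) hα2 G.s1 G.s1_fixed) x

@[simp]
theorem s3Act_s0_apply (x : JZero (M * 2)) :
    (s3Act_of_gal M G hα2 hβ2).s0 x = G.s0 • x := rfl

@[simp]
theorem s3Act_s1_apply (x : JZero (M * 2)) :
    (s3Act_of_gal M G hα2 hβ2).s1 x = G.s1 • x := rfl

theorem s3Act_c_apply (x : JZero (M * 2)) :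
    (s3Act_of_gal M G hα2 hβ2).c x = (G.s0 * G.s1) • x := by
  rw [S3Act.c_apply, s3Act_s0_apply, s3Act_s1_apply, mul_smul]

theorem s3Act_c_mk (D : Divisor.degZero (K := Kb) (F := FN (M * 2))) :
    (s3Act_of_gal M G hα2 hβ2).c (Pic0.mk D)
      = Pic0.mk (Pic0.degZeroSMulHom (G.s0 * G.s1) D) := by
  rw [s3Act_c_apply]
  rfl

end Act

end Fermat.Agent.S59.LL.SQ23.H89
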