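/-
S59, package LL, sub-package SQ23 (q = 2, p = 3), leaf S3-PIC (helper98).

The action of an automorphism `σ ∈ Aut(F/K)` of a function field on places, divisors and `Pic⁰` is the
prelude's action of `SemilinearAut.ofAlgAut σ`.  This file proves, for a quadratic extension
`ι : E → F` with a non-trivial automorphism `σ` of `F` fixing `ι E`:

* `iota_norm`        : `ι (N_{F/E} x) = x * σ x`;
* `pull_push_div`    : `ι^* ι_* D = D + σ D` on divisors;
* `pull_push_pic0`   : `ι^* ι_* x = x + σ x` on `Pic⁰`;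
* `smul_pull_div`, `smul_pull_pic0` : `σ (ι^* y) = ι^* y`;
* `push_smul_div`, `push_smul_pic0` : `ι_* (σ x) = ι_* x`;
* modular instances `alpha_pull_push`, `beta_pull_push` (level `N`, `2 ∣ N`, to level `N * 2`).
-/
import Fermat.Agent.S59.LL.SQ.H40_Pull
import Fermat.Agent.Lib.HeckeComm.H2_Principle

set_option autoImplicit false
set_option linter.style.haveILetI false
set_option linter.unusedSectionVars false

noncomputable section

namespace Fermat.Agent.S59.LL.SQ23.H98

open AlgebraicCurve ModularCurve Fermat.Agent.Lib.HeckeComm Fermat.Agent.S36.H44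
  Fermat.Agent.S59.LL.SQ.H40

/-! ### The norm of a quadratic extension with a non-trivial automorphism -/

section GaloisNorm

theorem norm_eq_mul_of_quadratic {E F : Type*} [Field E] [Field F] [Algebra E F]
    (h2 : Module.finrank E F = 2) (σ : F ≃ₐ[E] F) (hσ : σ ≠ 1) (x : F) :
    algebraMap E F (Algebra.norm E x) = x * σ x := by
  classical
  haveI : FiniteDimensional E F := Module.finite_of_finrank_pos (by rw [h2]; norm_num)
  have hle : Fintype.card (F ≃ₐ[E] F) ≤ 2 := h2 ▸ AlgEquiv.card_le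
  have hpair : ({1, σ} : Finset (F ≃ₐ[E] F)).card = 2 := Finset.card_pair (Ne.symm hσ)
  have hge : 2 ≤ Fintype.card (F ≃ₐ[E] F) := by
    rw [← hpair]; exact Finset.card_le_univ _
  have hcard : Fintype.card (F ≃ₐ[E] F) = 2 := le_antisymm hle hge
  haveI : IsGalois E F := IsGalois.of_card_aut_eq_finrank E F (by
    rw [Nat.card_eq_fintype_card, hcard, h2])
  have huniv : (Finset.univ : Finset (F ≃ₐ[E] F)) = {1, σ} := by
    symm
    apply Finset.eq_univ_of_card
    rw [hpair, hcard]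
  rw [Algebra.norm_eq_prod_automorphisms, huniv, Finset.prod_pair (Ne.symm hσ)]
  rfl

end GaloisNorm

/-! ### Generic function fields -/

section Generic

variable {K E F : Type*} [Field K] [Field E] [Field F] [Algebra K E] [Algebra K F]
variable (ι : E →ₐ[K] F)

/-- An automorphism of `F` over `K` fixing `ι E`, as an automorphism over `E`. -/
def deckE (σ : F ≃ₐ[K] F) (hσι : ∀ e, σ (ι e) = ι e) :
    letI := algebraAlong ι
    F ≃ₐ[E] F :=
  letI := algebraAlong ι
  { (σ : F ≃+* F) with commutes' := hσι }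

theorem deckE_apply (σ : F ≃ₐ[K] F) (hσι : ∀ e, σ (ι e) = ι e) (x : F) :
    deckE ι σ hσι x = σ x := rfl

theorem deckE_ne_one {σ : F ≃ₐ[K] F} (hσι : ∀ e, σ (ι e) = ι e) (hσ : σ ≠ 1) :
    letI := algebraAlong ι
    deckE ι σ hσι ≠ 1 := by
  letI := algebraAlong ι
  intro h
  apply hσ
  ext x
  have := congrArg (fun τ : F ≃ₐ[E] F => τ x) h
  exact this

/-- `ι (N_{F/E} x) = x σ(x)`. -/
theorem iota_norm (h2 : finrankAlong K ι = 2) (σ : F ≃ₐ[K] F) (hσ : σ ≠ 1)
    (hσι : ∀ e, σ (ι e) = ι e) (x : F) :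
    ι (letI := algebraAlong ι; Algebra.norm E x) = x * σ x := by
  letI := algebraAlong ι
  exact norm_eq_mul_of_quadratic h2 (deckE ι σ hσι) (deckE_ne_one ι hσι hσ) x

/-- The action of `σ` on divisors, as an additive map. -/
def smulDiv (σ : F ≃ₐ[K] F) : Divisor K F →+ Divisor K F :=
  DistribSMul.toAddMonoidHom (Divisor K F) (SemilinearAut.ofAlgAut σ)

@[simp]
theorem smulDiv_apply (σ : F ≃ₐ[K] F) (D : Divisor K F) :
    smulDiv σ D = SemilinearAut.ofAlgAut σ • D := rfl

theorem smulDiv_single (σ : F ≃ₐ[K] F) (v : Place K F) (n : ℤ) :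
    smulDiv σ (Finsupp.single v n) = Finsupp.single (SemilinearAut.ofAlgAut σ • v) n := by
  rw [smulDiv_apply, SemilinearAut.smul_single]

/-- `(σ D)(w) = ord_w (σ f)` for `D = div f`. -/
theorem smulDiv_ord (σ : F ≃ₐ[K] F) {f : F} (D : Divisor K F)
    (hD : ∀ v : Place K F, D v = v.ord f) (w : Place K F) :
    smulDiv σ D w = w.ord (σ f) := by
  rw [smulDiv_apply, SemilinearAut.divisor_smul_apply, hD]
  have h := SemilinearAut.ord_smul (SemilinearAut.ofAlgAut σ)
    ((SemilinearAut.ofAlgAut σ)⁻¹ • w) f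
  rw [smul_inv_smul] at h
  exact h.symm

theorem finPre_smulDiv (σ : F ≃ₐ[K] F) : FinPre (smulDiv (K := K) σ) := by
  intro w
  refine (Set.finite_singleton ((SemilinearAut.ofAlgAut σ)⁻¹ • w)).subset fun v hv => ?_
  rw [Set.mem_ofPred_eq, smulDiv_single] at hv
  rw [Set.mem_singleton_iff]
  by_contra hne
  apply hv
  rw [Finsupp.single_eq_of_ne]
  intro h
  apply hne
  rw [h, inv_smul_smul]

theorem finPre_id : FinPre (AddMonoidHom.id (Divisor K F)) := by
  intro w
  refine (Set.finite_singleton w).subset fun v hv => ?_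
  rw [Set.mem_ofPred_eq, AddMonoidHom.id_apply] at hv
  rw [Set.mem_singleton_iff]
  by_contra hne
  apply hv
  rw [Finsupp.single_eq_of_ne (fun h => hne h.symm)]

theorem FinPre.add' {F' : Type*} [Field F'] [Algebra K F'] {Φ Ψ : Divisor K F →+ Divisor K F'}
    (hΦ : FinPre Φ) (hΨ : FinPre Ψ) : FinPre (Φ + Ψ) := by
  intro w
  refine ((hΦ w).union (hΨ w)).subset fun v hv => ?_
  rw [Set.mem_ofPred_eq, AddMonoidHom.add_apply, Finsupp.add_apply] at hv
  by_contra hne
  rw [Set.mem_union, not_or] at hne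
  apply hv
  have h1 : Φ (Finsupp.single v 1) w = 0 := by
    by_contra h; exact hne.1 h
  have h2 : Ψ (Finsupp.single v 1) w = 0 := by
    by_contra h; exact hne.2 h
  rw [h1, h2, add_zero]

variable [HasPrincipalDivisors K E] [HasPrincipalDivisors K F]
variable (hι : ι.toRingHom.IsIntegral)

/-- `ι_* (div f) = div (N f)`. -/
theorem pushforwardAlong_ord (hfin : FiniteAlong K ι) (hN : NormFormulaAlong K ι hfin)
    {f : F} (hf : f ≠ 0) (D : Divisor K F)
    (hD : ∀ w : Place K F, D w = w.ord f) (v : Place K E) :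
    Divisor.pushforwardAlong ι hι D v = v.ord (letI := algebraAlong ι; Algebra.norm E f) := by
  letI := algebraAlong ι
  haveI := isScalarTower_along ι
  haveI := isIntegral_along ι hι
  haveI : Module.Finite E F := hfin
  exact hN f hf D hD v

/-- **`ι^* ι_* = 1 + σ` on divisors** (quadratic extension, `σ` the non-trivial automorphism). -/
theorem pull_push_div (hfin : FiniteAlong K ι) (hN : NormFormulaAlong K ι hfin)
    (h2 : finrankAlong K ι = 2) (σ : F ≃ₐ[K] F) (hσ : σ ≠ 1)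
    (hσι : ∀ e, σ (ι e) = ι e) :
    (Divisor.pullbackAlong ι hι).comp (Divisor.pushforwardAlong ι hι)
      = AddMonoidHom.id (Divisor K F) + smulDiv σ := by
  refine eq_of_eq_on_principal _ _
    (FinPre.comp (finPre_pullbackAlong ι hι) (finPre_pushforwardAlong ι hι))
    (FinPre.add' finPre_id (finPre_smulDiv σ)) ?_
  intro f D hf hD
  apply Finsupp.ext
  intro w
  have hσf : σ f ≠ 0 := fun h0 => hf (by simpa using h0)
  rw [AddMonoidHom.comp_apply,
    pullbackAlong_ord ι hι _ (pushforwardAlong_ord ι hι hfin hN hf D hD) w,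
    iota_norm ι h2 σ hσ hσι f, Place.ord_mul _ hf hσf, AddMonoidHom.add_apply,
    AddMonoidHom.id_apply, Finsupp.add_apply, hD w, smulDiv_ord σ D hD w]

theorem pull_push_div_apply (hfin : FiniteAlong K ι) (hN : NormFormulaAlong K ι hfin)
    (h2 : finrankAlong K ι = 2) (σ : F ≃ₐ[K] F) (hσ : σ ≠ 1)
    (hσι : ∀ e, σ (ι e) = ι e) (D : Divisor K F) :
    Divisor.pullbackAlong ι hι (Divisor.pushforwardAlong ι hι D)
      = D + SemilinearAut.ofAlgAut σ • D := by
  have h := congrArg (fun Φ : Divisor K F →+ Divisor K F => Φ D)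
    (pull_push_div ι hι hfin hN h2 σ hσ hσι)
  exact h

/-- `σ (ι^* D) = ι^* D` for an automorphism `σ` fixing `ι E` (any degree). -/
theorem smul_pull_div (σ : F ≃ₐ[K] F) (hσι : ∀ e, σ (ι e) = ι e) :
    (smulDiv σ).comp (Divisor.pullbackAlong ι hι) = Divisor.pullbackAlong ι hι := by
  refine eq_of_eq_on_principal _ _
    (FinPre.comp (finPre_smulDiv σ) (finPre_pullbackAlong ι hι)) (finPre_pullbackAlong ι hι) ?_
  intro f D hf hD
  apply Finsupp.ext
  intro w
  rw [AddMonoidHom.comp_apply,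
    smulDiv_ord σ (f := ι f) _ (fun v => pullbackAlong_ord ι hι D hD v) w, hσι,
    pullbackAlong_ord ι hι D hD w]

theorem smul_pull_div_apply (σ : F ≃ₐ[K] F) (hσι : ∀ e, σ (ι e) = ι e) (D : Divisor K E) :
    SemilinearAut.ofAlgAut σ • Divisor.pullbackAlong ι hι D = Divisor.pullbackAlong ι hι D := by
  have h := congrArg (fun Φ : Divisor K E →+ Divisor K F => Φ D) (smul_pull_div ι hι σ hσι)
  exact h

/-- `ι_* (σ D) = ι_* D` for an automorphism `σ` fixing `ι E` (any degree). -/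
theorem push_smul_div (hfin : FiniteAlong K ι) (hN : NormFormulaAlong K ι hfin)
    (σ : F ≃ₐ[K] F) (hσι : ∀ e, σ (ι e) = ι e) :
    (Divisor.pushforwardAlong ι hι).comp (smulDiv σ) = Divisor.pushforwardAlong ι hι := by
  refine eq_of_eq_on_principal _ _
    (FinPre.comp (finPre_pushforwardAlong ι hι) (finPre_smulDiv σ))
    (finPre_pushforwardAlong ι hι) ?_
  intro f D hf hD
  apply Finsupp.ext
  intro v
  have hσf : σ f ≠ 0 := fun h0 => hf (by simpa using h0)
  have hnorm : (letI := algebraAlong ι; Algebra.norm E (σ f))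
      = (letI := algebraAlong ι; Algebra.norm E f) := by
    letI := algebraAlong ι
    exact Algebra.norm_eq_of_algEquiv (deckE ι σ hσι) f
  rw [AddMonoidHom.comp_apply,
    pushforwardAlong_ord ι hι hfin hN hσf _ (fun w => smulDiv_ord σ D hD w) v, hnorm,
    pushforwardAlong_ord ι hι hfin hN hf D hD v]

theorem push_smul_div_apply (hfin : FiniteAlong K ι) (hN : NormFormulaAlong K ι hfin)
    (σ : F ≃ₐ[K] F) (hσι : ∀ e, σ (ι e) = ι e) (D : Divisor K F) :
    Divisor.pushforwardAlong ι hι (SemilinearAut.ofAlgAut σ • D)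
      = Divisor.pushforwardAlong ι hι D := by
  have h := congrArg (fun Φ : Divisor K F →+ Divisor K E => Φ D)
    (push_smul_div ι hι hfin hN σ hσι)
  exact h

/-! ### On `Pic⁰` -/

variable (hFI : FundamentalIdentityAlong K ι hι)

/-- **`ι^* ι_* = 1 + σ` on `Pic⁰`**. -/
theorem pull_push_pic0 (hfin : FiniteAlong K ι) (hN : NormFormulaAlong K ι hfin)
    (h2 : finrankAlong K ι = 2) (σ : F ≃ₐ[K] F) (hσ : σ ≠ 1)
    (hσι : ∀ e, σ (ι e) = ι e) (x : Pic0 K F) :
    pic0Pull ι hι hFI (pic0Push ι hι hfin hN x) = x + SemilinearAut.ofAlgAut σ • x := by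
  obtain ⟨D, rfl⟩ := Pic0.mk_surjective x
  rw [pic0Push_mk, pic0Pull_mk, SemilinearAut.pic0_smul_mk]
  show _ = Pic0.mk (D + SemilinearAut.degZeroSMulHom (SemilinearAut.ofAlgAut σ) D)
  refine congrArg Pic0.mk (Subtype.ext ?_)
  rw [coe_degZeroPull, coe_degZeroPush, AddSubgroup.coe_add,
    SemilinearAut.coe_degZeroSMulHom]
  exact pull_push_div_apply ι hι hfin hN h2 σ hσ hσι _

/-- `σ (ι^* y) = ι^* y` on `Pic⁰`. -/
theorem smul_pull_pic0 (σ : F ≃ₐ[K] F) (hσι : ∀ e, σ (ι e) = ι e) (y : Pic0 K E) :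
    SemilinearAut.ofAlgAut σ • pic0Pull ι hι hFI y = pic0Pull ι hι hFI y := by
  obtain ⟨D, rfl⟩ := Pic0.mk_surjective y
  rw [pic0Pull_mk, SemilinearAut.pic0_smul_mk]
  refine congrArg Pic0.mk (Subtype.ext ?_)
  rw [SemilinearAut.coe_degZeroSMulHom, coe_degZeroPull]
  exact smul_pull_div_apply ι hι σ hσι _

/-- `ι_* (σ x) = ι_* x` on `Pic⁰`. -/
theorem push_smul_pic0 (hfin : FiniteAlong K ι) (hN : NormFormulaAlong K ι hfin)
    (σ : F ≃ₐ[K] F) (hσι : ∀ e, σ (ι e) = ι e) (x : Pic0 K F) :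
    pic0Push ι hι hfin hN (SemilinearAut.ofAlgAut σ • x) = pic0Push ι hι hfin hN x := by
  obtain ⟨D, rfl⟩ := Pic0.mk_surjective x
  rw [SemilinearAut.pic0_smul_mk, pic0Push_mk, pic0Push_mk]
  refine congrArg Pic0.mk (Subtype.ext ?_)
  rw [coe_degZeroPush, coe_degZeroPush, SemilinearAut.coe_degZeroSMulHom]
  exact push_smul_div_apply ι hι hfin hN σ hσι _

/-- A class fixed by `σ` is, up to the factor `2`, a pull-back: `2 x = ι^* ι_* x`. -/
theorem two_smul_eq_pull_push (hfin : FiniteAlong K ι) (hN : NormFormulaAlong K ι hfin)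
    (h2 : finrankAlong K ι = 2) (σ : F ≃ₐ[K] F) (hσ : σ ≠ 1)
    (hσι : ∀ e, σ (ι e) = ι e) (x : Pic0 K F) (hx : SemilinearAut.ofAlgAut σ • x = x) :
    (2 : ℕ) • x = pic0Pull ι hι hFI (pic0Push ι hι hfin hN x) := by
  rw [pull_push_pic0 ι hι hFI hfin hN h2 σ hσ hσι x, hx, two_nsmul]

end Generic

end Fermat.Agent.S59.LL.SQ23.H98
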