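/-
S59, package LL, sub-package SQ23 (q = 2, p = 3), leaf S3-PIC (helper98): modular instances.

For the two degeneracy maps `α, β : F_N → F_{N·2}` (`2 ∣ N`) and an automorphism `s ≠ 1` of `F_{N·2}`
over `Q̄` fixing the image of `α` (resp. `β`):
  `α^* α_* = 1 + s`  (resp. `β^* β_* = 1 + s`)  on `J₀(N·2)`,
  `s (α^* y) = α^* y`, `α_* (s x) = α_* x`, and `s x = x ⟹ 2 x = α^* α_* x`.
-/
import Fermat.Agent.S59.LL.SQ23.H98_S3Pic
import Fermat.Agent.NEB.OLD.H6_DegBeta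

set_option autoImplicit false
set_option linter.style.haveILetI false
set_option linter.unusedSectionVars false

noncomputable section

namespace Fermat.Agent.S59.LL.SQ23.H98

open AlgebraicCurve ModularCurve Fermat.Agent.Lib.HeckeComm Fermat.Agent.S36.H44
  Fermat.Agent.S59.LL.SQ.H40

local notation "Kb" => AlgebraicClosure ℚ

section Alpha

variable (N : ℕ) [NeZero N]

/-- `[F_{N·2} : α F_N] = 2` for `2 ∣ N`. -/
theorem finrankAlong_alpha_two (h2N : 2 ∣ N) : finrankAlong Kb (heckeAlphaBar Kb N 2) = 2 :=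
  Fermat.Agent.NEB.OLD.H6.finrankAlong_alpha_of_dvd N 2 Nat.prime_two h2N

/-- **`α^* α_* = 1 + s`** on `J₀(N·2)`, `2 ∣ N`. -/
theorem alpha_pull_push (h2N : 2 ∣ N)
    (s : ↥(modularFunctionFieldBar (N * 2)) ≃ₐ[Kb] ↥(modularFunctionFieldBar (N * 2)))
    (hs : s ≠ 1) (hfix : ∀ e, s (heckeAlphaBar Kb N 2 e) = heckeAlphaBar Kb N 2 e)
    (x : JZero (N * 2)) :
    alphaPull N 2 (alphaPush N 2 x) = x + SemilinearAut.ofAlgAut s • x := by
  haveI := hasPD_FN (N * 2)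
  haveI := hasPD_FN N
  exact pull_push_pic0 (heckeAlphaBar Kb N 2) (alpha_integral N 2) (alpha_FI N 2)
    (alpha_finite N 2) (alpha_norm N 2) (finrankAlong_alpha_two N h2N) s hs hfix x

/-- `s (α^* y) = α^* y`. -/
theorem smul_alphaPull
    (s : ↥(modularFunctionFieldBar (N * 2)) ≃ₐ[Kb] ↥(modularFunctionFieldBar (N * 2)))
    (hfix : ∀ e, s (heckeAlphaBar Kb N 2 e) = heckeAlphaBar Kb N 2 e) (y : JZero N) :
    SemilinearAut.ofAlgAut s • alphaPull N 2 y = alphaPull N 2 y := by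
  haveI := hasPD_FN (N * 2)
  haveI := hasPD_FN N
  exact smul_pull_pic0 (heckeAlphaBar Kb N 2) (alpha_integral N 2) (alpha_FI N 2) s hfix y

/-- `α_* (s x) = α_* x`. -/
theorem alphaPush_smul
    (s : ↥(modularFunctionFieldBar (N * 2)) ≃ₐ[Kb] ↥(modularFunctionFieldBar (N * 2)))
    (hfix : ∀ e, s (heckeAlphaBar Kb N 2 e) = heckeAlphaBar Kb N 2 e) (x : JZero (N * 2)) :
    alphaPush N 2 (SemilinearAut.ofAlgAut s • x) = alphaPush N 2 x := by
  haveI := hasPD_FN (N * 2)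
  haveI := hasPD_FN N
  exact push_smul_pic0 (heckeAlphaBar Kb N 2) (alpha_integral N 2)
    (alpha_finite N 2) (alpha_norm N 2) s hfix x

/-- `s x = x ⟹ 2 x = α^* α_* x`. -/
theorem two_smul_eq_alpha (h2N : 2 ∣ N)
    (s : ↥(modularFunctionFieldBar (N * 2)) ≃ₐ[Kb] ↥(modularFunctionFieldBar (N * 2)))
    (hs : s ≠ 1) (hfix : ∀ e, s (heckeAlphaBar Kb N 2 e) = heckeAlphaBar Kb N 2 e)
    (x : JZero (N * 2)) (hx : SemilinearAut.ofAlgAut s • x = x) :
    (2 : ℕ) • x = alphaPull N 2 (alphaPush N 2 x) := by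
  rw [alpha_pull_push N h2N s hs hfix x, hx, two_nsmul]

end Alpha

section Beta

variable (M : ℕ) [NeZero M]

/-- `[F_{M·2·2} : β F_{M·2}] = 2` for `M` odd. -/
theorem finrankAlong_beta_two (hM : ¬ 2 ∣ M) :
    finrankAlong Kb (heckeBetaBar Kb (M * 2) 2) = 2 :=
  Fermat.Agent.NEB.OLD.H6.stmt_DegBeta M 2 Nat.prime_two hM

/-- **`β^* β_* = 1 + s`** on `J₀(M·2·2)`, `M` odd. -/
theorem beta_pull_push (hM : ¬ 2 ∣ M)
    (s : ↥(modularFunctionFieldBar (M * 2 * 2)) ≃ₐ[Kb] ↥(modularFunctionFieldBar (M * 2 * 2)))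
    (hs : s ≠ 1)
    (hfix : ∀ e, s (heckeBetaBar Kb (M * 2) 2 e) = heckeBetaBar Kb (M * 2) 2 e)
    (x : JZero (M * 2 * 2)) :
    betaPull (M * 2) 2 (betaPush (M * 2) 2 x) = x + SemilinearAut.ofAlgAut s • x := by
  haveI := hasPD_FN (M * 2 * 2)
  haveI := hasPD_FN (M * 2)
  exact pull_push_pic0 (heckeBetaBar Kb (M * 2) 2) (beta_integral (M * 2) 2)
    (beta_FI (M * 2) 2) (beta_finite (M * 2) 2) (beta_norm (M * 2) 2)
    (finrankAlong_beta_two M hM) s hs hfix x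

end Beta

section BetaAny

variable (N : ℕ) [NeZero N]

/-- `s (β^* y) = β^* y`. -/
theorem smul_betaPull
    (s : ↥(modularFunctionFieldBar (N * 2)) ≃ₐ[Kb] ↥(modularFunctionFieldBar (N * 2)))
    (hfix : ∀ e, s (heckeBetaBar Kb N 2 e) = heckeBetaBar Kb N 2 e) (y : JZero N) :
    SemilinearAut.ofAlgAut s • betaPull N 2 y = betaPull N 2 y := by
  haveI := hasPD_FN (N * 2)
  haveI := hasPD_FN N
  exact smul_pull_pic0 (heckeBetaBar Kb N 2) (beta_integral N 2) (beta_FI N 2) s hfix y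

/-- `β_* (s x) = β_* x`. -/
theorem betaPush_smul
    (s : ↥(modularFunctionFieldBar (N * 2)) ≃ₐ[Kb] ↥(modularFunctionFieldBar (N * 2)))
    (hfix : ∀ e, s (heckeBetaBar Kb N 2 e) = heckeBetaBar Kb N 2 e) (x : JZero (N * 2)) :
    betaPush N 2 (SemilinearAut.ofAlgAut s • x) = betaPush N 2 x := by
  haveI := hasPD_FN (N * 2)
  haveI := hasPD_FN N
  exact push_smul_pic0 (heckeBetaBar Kb N 2) (beta_integral N 2)
    (beta_finite N 2) (beta_norm N 2) s hfix x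

end BetaAny

section Beta2

variable (M : ℕ) [NeZero M]

/-- `s x = x ⟹ 2 x = β^* β_* x`. -/
theorem two_smul_eq_beta (hM : ¬ 2 ∣ M)
    (s : ↥(modularFunctionFieldBar (M * 2 * 2)) ≃ₐ[Kb] ↥(modularFunctionFieldBar (M * 2 * 2)))
    (hs : s ≠ 1)
    (hfix : ∀ e, s (heckeBetaBar Kb (M * 2) 2 e) = heckeBetaBar Kb (M * 2) 2 e)
    (x : JZero (M * 2 * 2)) (hx : SemilinearAut.ofAlgAut s • x = x) :
    (2 : ℕ) • x = betaPull (M * 2) 2 (betaPush (M * 2) 2 x) := by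
  rw [beta_pull_push M hM s hs hfix x, hx, two_nsmul]

end Beta2

end Fermat.Agent.S59.LL.SQ23.H98
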